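import Mathlib
import Fermat.Prelude.Def_ModularCurve_X0

/-!
# Formal versus analytic `q`-expansions of `E₄`, `Δ`, `1/Δ` in level one

Shared library (used by S24 and S28).
-/

set_option autoImplicit false

namespace Fermat.Agent.Lib.LevelOneQExp

open ModularCurve Filter Topology
open scoped PowerSeries.WithPiTopology

noncomputable section

/-- `F` is given on the open unit disc by the (everywhere convergent there) power series `f`. -/
def IsPS (F : ℂ → ℂ) (f : PowerSeries ℂ) : Prop :=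
  ∀ q : ℂ, ‖q‖ < 1 → HasSum (fun n : ℕ => f.coeff n * q ^ n) (F q)

theorem IsPS.congr {F G : ℂ → ℂ} {f : PowerSeries ℂ} (h : IsPS F f)
    (hFG : ∀ q : ℂ, ‖q‖ < 1 → F q = G q) : IsPS G f := fun q hq => hFG q hq ▸ h q hq

theorem isPS_C (c : ℂ) : IsPS (fun _ => c) (PowerSeries.C c) := by
  intro q _
  convert hasSum_ite_eq (0 : ℕ) c using 2 with n
  rw [PowerSeries.coeff_C]
  split_ifs with h
  · subst h; simp
  · simp

theorem isPS_one : IsPS (fun _ => 1) 1 := by
  simpa using isPS_C 1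

theorem isPS_X_pow (m : ℕ) : IsPS (fun q => q ^ m) (PowerSeries.X ^ m) := by
  intro q _
  convert hasSum_ite_eq (m : ℕ) (q ^ m) using 2 with n
  rw [PowerSeries.coeff_X_pow]
  split_ifs with h
  · subst h; simp
  · simp

theorem isPS_X : IsPS (fun q => q) PowerSeries.X := by
  simpa using isPS_X_pow 1

theorem IsPS.add {F G : ℂ → ℂ} {f g : PowerSeries ℂ} (hF : IsPS F f) (hG : IsPS G g) :
    IsPS (fun q => F q + G q) (f + g) := by
  intro q hq
  simpa [add_mul] using (hF q hq).add (hG q hq)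

theorem IsPS.neg {F : ℂ → ℂ} {f : PowerSeries ℂ} (hF : IsPS F f) :
    IsPS (fun q => - F q) (-f) := by
  intro q hq
  simpa using (hF q hq).neg

theorem IsPS.sub {F G : ℂ → ℂ} {f g : PowerSeries ℂ} (hF : IsPS F f) (hG : IsPS G g) :
    IsPS (fun q => F q - G q) (f - g) := by
  intro q hq
  simpa [sub_mul] using (hF q hq).sub (hG q hq)

theorem IsPS.mul {F G : ℂ → ℂ} {f g : PowerSeries ℂ} (hF : IsPS F f) (hG : IsPS G g) :
    IsPS (fun q => F q * G q) (f * g) := by
  intro q hq
  have h1 := (hF q hq)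
  have h2 := (hG q hq)
  have s1 : Summable fun n : ℕ => ‖f.coeff n * q ^ n‖ := h1.summable.norm
  have s2 : Summable fun n : ℕ => ‖g.coeff n * q ^ n‖ := h2.summable.norm
  have key := tsum_mul_tsum_eq_tsum_sum_antidiagonal_of_summable_norm s1 s2
  have hs := (summable_norm_sum_mul_antidiagonal_of_summable_norm s1 s2).of_norm
  rw [h1.tsum_eq, h2.tsum_eq] at key
  show HasSum _ (F q * G q)
  rw [key]
  have hfun : (fun n : ℕ => (f * g).coeff n * q ^ n) = fun n : ℕ =>
      ∑ kl ∈ Finset.HasAntidiagonal.antidiagonal n, f.coeff kl.1 * q ^ kl.1 * (g.coeff kl.2 * q ^ kl.2) := by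
    funext n
    rw [PowerSeries.coeff_mul, Finset.sum_mul]
    refine Finset.sum_congr rfl fun kl hkl => ?_
    rw [← Finset.HasAntidiagonal.mem_antidiagonal.mp hkl, pow_add]
    ring
  rw [hfun]
  exact hs.hasSum

theorem IsPS.pow {F : ℂ → ℂ} {f : PowerSeries ℂ} (hF : IsPS F f) (n : ℕ) :
    IsPS (fun q => F q ^ n) (f ^ n) := by
  induction n with
  | zero => simpa using isPS_one
  | succ n ih => simpa [pow_succ] using ih.mul hF

theorem IsPS.prod {ι : Type*} (s : Finset ι) {F : ι → ℂ → ℂ} {f : ι → PowerSeries ℂ}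
    (h : ∀ i ∈ s, IsPS (F i) (f i)) : IsPS (fun q => ∏ i ∈ s, F i q) (∏ i ∈ s, f i) := by
  classical
  induction s using Finset.induction_on with
  | empty => simpa using isPS_one
  | insert a s ha ih =>
    simp only [Finset.prod_insert ha]
    exact (h a (Finset.mem_insert_self a s)).mul
      (ih fun i hi => h i (Finset.mem_insert_of_mem hi))

theorem IsPS.hasFPowerSeriesOnBall {F : ℂ → ℂ} {f : PowerSeries ℂ} (hF : IsPS F f) :
    HasFPowerSeriesOnBall F (FormalMultilinearSeries.ofScalars ℂ fun n => f.coeff n) 0 1 := by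
  constructor
  · refine le_of_forall_lt_imp_le_of_dense fun r hr ↦ ?_
    lift r to NNReal using hr.ne_top
    apply FormalMultilinearSeries.le_radius_of_summable
    simpa [smul_eq_mul, norm_mul, mul_comm, mul_left_comm, mul_assoc] using
      (hF (r : ℂ) (by simpa using hr)).summable.norm
  · simp
  · intro y hy
    rw [← ENNReal.coe_one, Metric.eball_coe, NNReal.coe_one, mem_ball_zero_iff] at hy
    simpa [mul_comm] using hF y hy

theorem IsPS.coeff_eq {F : ℂ → ℂ} {f : PowerSeries ℂ} (hF : IsPS F f) (m : ℕ) :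
    f.coeff m = iteratedDeriv m F 0 / (m.factorial : ℂ) := by
  have h1 := hF.hasFPowerSeriesOnBall.hasFPowerSeriesAt
  have h2 := h1.analyticAt.hasFPowerSeriesAt
  simpa using congr_arg (FormalMultilinearSeries.coeff · m) (h1.eq_formalMultilinearSeries h2)

theorem IsPS.unique {F : ℂ → ℂ} {f g : PowerSeries ℂ} (hf : IsPS F f) (hg : IsPS F g) : f = g := by
  ext m
  rw [hf.coeff_eq, hg.coeff_eq]

theorem isPS_of_differentiableOn {F : ℂ → ℂ} (hF : DifferentiableOn ℂ F (Metric.ball 0 1)) :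
    IsPS F (PowerSeries.mk fun m => iteratedDeriv m F 0 / (m.factorial : ℂ)) := by
  intro q hq
  have h := Complex.hasSum_taylorSeries_on_ball hF (z := q) (by simpa using hq)
  have hfun : (fun n : ℕ => (PowerSeries.mk fun m => iteratedDeriv m F 0 / (m.factorial : ℂ)).coeff n
      * q ^ n) = fun n : ℕ => ((n.factorial : ℂ))⁻¹ • (q - 0) ^ n • iteratedDeriv n F 0 := by
    funext n
    simp only [PowerSeries.coeff_mk, sub_zero, smul_eq_mul]
    ring
  rw [hfun]
  exact h

theorem IsPS.differentiableOn {F : ℂ → ℂ} {f : PowerSeries ℂ} (hF : IsPS F f) :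
    DifferentiableOn ℂ F (Metric.ball 0 1) := by
  have h := hF.hasFPowerSeriesOnBall.differentiableOn
  rwa [← ENNReal.coe_one, Metric.eball_coe, NNReal.coe_one] at h

theorem tendstoLocallyUniformlyOn_iteratedDeriv {ι : Type*} {φ : Filter ι} {F : ι → ℂ → ℂ}
    {f : ℂ → ℂ} {U : Set ℂ} (hU : IsOpen U) (hf : TendstoLocallyUniformlyOn F f φ U)
    (hF : ∀ᶠ n in φ, DifferentiableOn ℂ (F n) U) (m : ℕ) :
    TendstoLocallyUniformlyOn (fun n => iteratedDeriv m (F n)) (iteratedDeriv m f) φ U ∧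
      ∀ᶠ n in φ, DifferentiableOn ℂ (iteratedDeriv m (F n)) U := by
  induction m with
  | zero => simpa [iteratedDeriv_zero] using ⟨hf, hF⟩
  | succ m ih =>
    refine ⟨?_, ?_⟩
    · have := ih.1.deriv ih.2 hU
      simp only [iteratedDeriv_succ]
      exact this
    · filter_upwards [ih.2] with n hn
      rw [iteratedDeriv_succ]
      exact hn.deriv hU

/-- A locally uniform limit of convergent power series is the coefficientwise limit. -/
theorem IsPS.of_tendsto {ι : Type*} {φ : Filter ι} [φ.NeBot] {F : ι → ℂ → ℂ} {G : ℂ → ℂ}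
    {f : ι → PowerSeries ℂ} {g : PowerSeries ℂ} (hF : ∀ i, IsPS (F i) (f i))
    (hlim : TendstoLocallyUniformlyOn F G φ (Metric.ball 0 1))
    (hc : ∀ m, Tendsto (fun i => (f i).coeff m) φ (𝓝 (g.coeff m))) : IsPS G g := by
  have hd : ∀ᶠ n in φ, DifferentiableOn ℂ (F n) (Metric.ball 0 1) :=
    Eventually.of_forall fun i => (hF i).differentiableOn
  have hG : DifferentiableOn ℂ G (Metric.ball 0 1) := hlim.differentiableOn hd Metric.isOpen_ball
  have h := isPS_of_differentiableOn hG
  have : g = PowerSeries.mk fun m => iteratedDeriv m G 0 / (m.factorial : ℂ) := by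
    ext m
    rw [PowerSeries.coeff_mk]
    refine tendsto_nhds_unique (hc m) ?_
    have h1 := ((tendstoLocallyUniformlyOn_iteratedDeriv Metric.isOpen_ball hlim hd m).1.tendsto_at
      (a := 0) (by simp)).div_const (m.factorial : ℂ)
    refine h1.congr fun i => ?_
    rw [(hF i).coeff_eq]
  rw [this]
  exact h

theorem isPS_etaProd :
    IsPS (fun q => ∏' n : ℕ, (1 - q ^ (n + 1))) (etaProd.map (Int.castRingHom ℂ)) := by
  have hlim := hasProdLocallyUniformlyOn_iff_tendstoLocallyUniformlyOn.mp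
    ModularForm.multipliableLocallyUniformlyOn_one_sub_pow.hasProdLocallyUniformlyOn
  refine IsPS.of_tendsto (f := fun s : Finset ℕ => ∏ n ∈ s, (1 - PowerSeries.X ^ (n + 1))) ?_ hlim ?_
  · intro s
    exact IsPS.prod s fun n _ => isPS_one.sub (isPS_X_pow (n + 1))
  · intro m
    have h1 : HasProd (fun n : ℕ => (1 - PowerSeries.X ^ (n + 1) : PowerSeries ℤ)) etaProd :=
      (PowerSeries.WithPiTopology.multipliable_one_sub_X_pow ℤ).hasProd
    have h2 : Tendsto (fun s : Finset ℕ =>
        (∏ n ∈ s, (1 - PowerSeries.X ^ (n + 1) : PowerSeries ℤ)).coeff m) atTop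
        (𝓝 (etaProd.coeff m)) :=
      ((PowerSeries.WithPiTopology.continuous_coeff ℤ m).tendsto _).comp h1
    have h3 := ((continuous_of_discreteTopology (f := fun z : ℤ => (z : ℂ))).tendsto _).comp h2
    rw [PowerSeries.coeff_map]
    refine h3.congr fun s => ?_
    have : (∏ n ∈ s, (1 - PowerSeries.X ^ (n + 1)) : PowerSeries ℂ) =
        (∏ n ∈ s, (1 - PowerSeries.X ^ (n + 1) : PowerSeries ℤ)).map (Int.castRingHom ℂ) := by
      simp [map_prod]
    rw [this, PowerSeries.coeff_map]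
    rfl

theorem tprod_one_sub_pow_ne_zero {q : ℂ} (hq : ‖q‖ < 1) : ∏' n : ℕ, (1 - q ^ (n + 1)) ≠ 0 := by
  have := tprod_one_add_ne_zero_of_summable (f := fun n : ℕ => -q ^ (n + 1)) ?_ ?_
  · simpa [sub_eq_add_neg] using this
  · intro i h
    have h1 : q ^ (i + 1) = 1 := by
      have : 1 - q ^ (i + 1) = 0 := by simpa [sub_eq_add_neg] using h
      exact (sub_eq_zero.mp this).symm
    have h2 : ‖q‖ ^ (i + 1) = 1 := by rw [← norm_pow, h1, norm_one]
    have h3 : ‖q‖ ^ (i + 1) < 1 := pow_lt_one₀ (norm_nonneg _) hq (Nat.succ_ne_zero i)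
    exact absurd h2 h3.ne
  · simpa using (summable_nat_add_iff 1).mpr (summable_geometric_of_lt_one (norm_nonneg _) hq)

theorem isPS_etaUnit :
    IsPS (fun q => (∏' n : ℕ, (1 - q ^ (n + 1))) ^ 24)
      (dedekindEtaUnit.map (Int.castRingHom ℂ)) := by
  rw [dedekindEtaUnit, map_pow]
  exact isPS_etaProd.pow 24

theorem isPS_etaUnitInv :
    IsPS (fun q => ((∏' n : ℕ, (1 - q ^ (n + 1))) ^ 24)⁻¹)
      (dedekindEtaUnitInv.map (Int.castRingHom ℂ)) := by
  have hd : DifferentiableOn ℂ (fun q : ℂ => ((∏' n : ℕ, (1 - q ^ (n + 1))) ^ 24)⁻¹)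
      (Metric.ball 0 1) :=
    (isPS_etaUnit.differentiableOn).inv fun q hq =>
      pow_ne_zero _ (tprod_one_sub_pow_ne_zero (by simpa using hq))
  have h := isPS_of_differentiableOn hd
  set g := PowerSeries.mk fun m => iteratedDeriv m
    (fun q : ℂ => ((∏' n : ℕ, (1 - q ^ (n + 1))) ^ 24)⁻¹) 0 / (m.factorial : ℂ) with hg
  have h1 : dedekindEtaUnit.map (Int.castRingHom ℂ) * g = 1 := by
    refine IsPS.unique ((isPS_etaUnit.mul h).congr (G := fun _ => 1) fun q hq => ?_) isPS_one
    exact mul_inv_cancel₀ (pow_ne_zero _ (tprod_one_sub_pow_ne_zero hq))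
  have h2 : dedekindEtaUnit.map (Int.castRingHom ℂ) * dedekindEtaUnitInv.map (Int.castRingHom ℂ)
      = 1 := by
    rw [← map_mul, dedekindEtaUnit_mul_inv, map_one]
  have h3 : dedekindEtaUnitInv.map (Int.castRingHom ℂ) = g := by
    calc dedekindEtaUnitInv.map (Int.castRingHom ℂ)
        = dedekindEtaUnitInv.map (Int.castRingHom ℂ) *
            (dedekindEtaUnit.map (Int.castRingHom ℂ) * g) := by rw [h1, mul_one]
      _ = (dedekindEtaUnit.map (Int.castRingHom ℂ) * dedekindEtaUnitInv.map (Int.castRingHom ℂ))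
            * g := by ring
      _ = g := by rw [h2, one_mul]
  rw [h3]
  exact h

open UpperHalfPlane ModularForm EisensteinSeries

local notation "𝕢" => Function.Periodic.qParam

theorem isPS_cuspFunction_discriminant :
    IsPS (cuspFunction 1 ModularForm.discriminant)
      (PowerSeries.X * dedekindEtaUnit.map (Int.castRingHom ℂ)) := by
  refine (isPS_X.mul isPS_etaUnit).congr fun q hq => ?_
  rw [discriminant_cuspFunction_eqOn (by simpa using hq)]
  simp only
  rw [(multipliable_one_sub_pow hq).tprod_pow]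

/-- The `q`-expansion of `Δ` is `q ∏ (1 - qⁿ)²⁴` as a formal series. -/
theorem qExpansion_discriminant :
    qExpansion 1 ModularForm.discriminant =
      PowerSeries.X * dedekindEtaUnit.map (Int.castRingHom ℂ) := by
  ext m
  rw [isPS_cuspFunction_discriminant.coeff_eq, qExpansion_coeff]
  ring

/-- The `q`-expansion of `E₄` is the formal series of the prelude. -/
theorem qExpansion_E4 :
    qExpansion 1 E₄ = eisenstein4.map (Int.castRingHom ℂ) := by
  ext m
  rw [E_qExpansion_coeff (by norm_num) ⟨2, rfl⟩, PowerSeries.coeff_map, eisenstein4,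
    PowerSeries.coeff_mk]
  split_ifs with h
  · simp
  · have hb : bernoulli 4 = -1 / 30 := by decide +kernel
    rw [hb, ArithmeticFunction.sigma_apply]
    push_cast
    norm_num

theorem isPS_cuspFunction_E4 :
    IsPS (cuspFunction 1 E₄) (eisenstein4.map (Int.castRingHom ℂ)) := by
  intro q hq
  rw [← qExpansion_E4]
  have := hasSum_qExpansion_of_norm_lt (f := E₄) (h := 1) one_pos
    (SlashInvariantFormClass.periodic_comp_ofComplex E₄ one_mem_strictPeriods_SL)
    (ModularFormClass.holo E₄) (ModularFormClass.bdd_at_infty E₄) hq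
  simpa [smul_eq_mul] using this

theorem norm_qParam_one_lt_one (τ : ℍ) : ‖𝕢 1 (τ : ℂ)‖ < 1 :=
  Function.Periodic.norm_qParam_lt_one one_pos τ.im_pos

theorem cuspFunction_E4_qParam (τ : ℍ) : cuspFunction 1 E₄ (𝕢 1 τ) = E₄ τ :=
  SlashInvariantFormClass.eq_cuspFunction E₄ τ one_mem_strictPeriods_SL one_ne_zero

theorem discriminant_eq_qParam_mul (τ : ℍ) :
    ModularForm.discriminant τ = 𝕢 1 τ * (∏' n : ℕ, (1 - 𝕢 1 (τ : ℂ) ^ (n + 1))) ^ 24 := by
  rw [discriminant_eq_q_prod, (multipliable_one_sub_pow (norm_qParam_one_lt_one τ)).tprod_pow]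

/-- the function `q ↦ q * j`, on the unit disc. -/
theorem isPS_jNum :
    IsPS (fun q => cuspFunction 1 E₄ q ^ 3 * ((∏' n : ℕ, (1 - q ^ (n + 1))) ^ 24)⁻¹)
      (jNum.map (Int.castRingHom ℂ)) := by
  rw [jNum, map_mul, map_pow]
  exact (isPS_cuspFunction_E4.pow 3).mul isPS_etaUnitInv

/-- From a convergent power series to a convergent Laurent series (shift by `q ^ m`). -/
theorem IsPS.hasSum_laurent {F : ℂ → ℂ} {f : PowerSeries ℂ} (h : IsPS F f) (m : ℤ) {q : ℂ}
    (hq : ‖q‖ < 1) (hq0 : q ≠ 0) :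
    HasSum (fun k : ℤ =>
      (HahnSeries.single m (1 : ℂ) * HahnSeries.ofPowerSeries ℤ ℂ f).coeff k * q ^ k)
      (q ^ m * F q) := by
  have h0 : HasSum (fun j : ℤ => (HahnSeries.ofPowerSeries ℤ ℂ f).coeff j * q ^ j) (F q) := by
    rw [← Nat.cast_injective.hasSum_iff]
    · have hfun : ((fun j : ℤ => (HahnSeries.ofPowerSeries ℤ ℂ f).coeff j * q ^ j) ∘
          (Nat.cast : ℕ → ℤ)) = fun n : ℕ => f.coeff n * q ^ n := by
        funext n
        simp [HahnSeries.ofPowerSeries_apply_coeff]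
      rw [hfun]
      exact h q hq
    · intro j hj
      have hj' : j < 0 := by
        by_contra hcon
        exact hj ⟨j.toNat, Int.toNat_of_nonneg (not_lt.mp hcon)⟩
      rw [ofPowerSeries_coeff_of_neg _ hj', zero_mul]
  rw [← (Equiv.addRight m).hasSum_iff]
  have hfun : ((fun k : ℤ =>
      (HahnSeries.single m (1 : ℂ) * HahnSeries.ofPowerSeries ℤ ℂ f).coeff k * q ^ k) ∘
      (Equiv.addRight m)) = fun j : ℤ => q ^ m * ((HahnSeries.ofPowerSeries ℤ ℂ f).coeff j * q ^ j) := by
    funext j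
    simp only [Function.comp_apply, Equiv.coe_addRight, HahnSeries.coeff_single_mul, one_mul,
      add_sub_cancel_right, zpow_add₀ hq0]
    ring
  rw [hfun]
  exact h0.mul_left _

end

end Fermat.Agent.Lib.LevelOneQExp
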