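import Mathlib

set_option autoImplicit false
set_option linter.unusedSectionVars false

namespace Fermat.Agent.Lib.AutExt

open MvPolynomial

variable {k Ω : Type*} [Field k] [Field Ω] [Algebra k Ω] [IsAlgClosed Ω]

/-- The shift automorphism of a polynomial ring. -/
noncomputable def shiftEquiv (R : Type*) [CommRing R] (ι : Type*) (c : ι → R) :
    MvPolynomial ι R ≃ₐ[R] MvPolynomial ι R :=
  AlgEquiv.ofAlgHom (aeval fun i => X i + C (c i)) (aeval fun i => X i - C (c i))
    (by ext i; simp) (by ext i; simp)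

/-- (1) a transcendental element can be translated by any constant. -/
theorem exists_algEquiv_apply_eq_add (x : Ω) (hx : Transcendental k x) (c : k) :
    ∃ σ : Ω ≃ₐ[k] Ω, σ x = x + algebraMap k Ω c := by
  classical
  have hind : AlgebraicIndepOn k id ({x} : Set Ω) :=
    algebraicIndependent_unique_type_iff.mpr hx
  obtain ⟨t, hxt, ht⟩ := exists_isTranscendenceBasis_superset hind
  have hxt' : x ∈ t := hxt rfl
  let _ := IsAlgClosed.isAlgClosure_of_transcendence_basis (Subtype.val : t → Ω) ht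
  let e0 := shiftEquiv k t (fun i => if i = ⟨x, hxt'⟩ then c else 0)
  let e : Algebra.adjoin k (Set.range (Subtype.val : t → Ω)) ≃ₐ[k]
      Algebra.adjoin k (Set.range (Subtype.val : t → Ω)) :=
    (ht.1.aevalEquiv.symm.trans e0).trans ht.1.aevalEquiv
  let σ0 : Ω ≃+* Ω := IsAlgClosure.equivOfEquiv Ω Ω e.toRingEquiv
  have hσ0 : ∀ y : Algebra.adjoin k (Set.range (Subtype.val : t → Ω)),
      σ0 (algebraMap _ Ω y) = algebraMap _ Ω (e y) := fun y =>
    IsAlgClosure.equivOfEquiv_algebraMap Ω Ω e.toRingEquiv y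
  refine ⟨AlgEquiv.ofRingEquiv (f := σ0) ?_, ?_⟩
  · intro a
    have h1 := hσ0 (algebraMap k _ a)
    rw [e.commutes] at h1
    exact h1
  · have h1 : (algebraMap (Algebra.adjoin k (Set.range (Subtype.val : t → Ω))) Ω)
        (ht.1.aevalEquiv (X ⟨x, hxt'⟩)) = x := by
      simp
    have h2 := hσ0 (ht.1.aevalEquiv (X ⟨x, hxt'⟩))
    rw [h1] at h2
    change σ0 x = _
    rw [h2]
    have h3 : e (ht.1.aevalEquiv (X ⟨x, hxt'⟩)) = ht.1.aevalEquiv (X ⟨x, hxt'⟩ + C c) := by
      simp [e, e0, shiftEquiv]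
    rw [h3]
    simp

/-- (2) an element with finite orbit under `Aut(Ω/k)` is algebraic over `k`. -/
theorem isAlgebraic_of_finite_orbit [CharZero k] (x : Ω)
    (h : (Set.range fun σ : Ω ≃ₐ[k] Ω => σ x).Finite) : IsAlgebraic k x := by
  by_contra hx
  have hx' : Transcendental k x := hx
  apply Set.infinite_of_injective_forall_mem (f := fun n : ℕ => x + algebraMap k Ω (n : k)) ?_ ?_ h
  · intro a b hab
    have h1 : algebraMap k Ω (a : k) = algebraMap k Ω (b : k) := add_left_cancel hab
    exact_mod_cast (algebraMap k Ω).injective h1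
  · intro n
    obtain ⟨σ, hσ⟩ := exists_algEquiv_apply_eq_add x hx' (n : k)
    exact ⟨σ, hσ⟩

/-- an algebraic element over an algebraically closed field lies in it. -/
theorem mem_range_algebraMap_of_isAlgebraic [IsAlgClosed k] (x : Ω) (h : IsAlgebraic k x) :
    x ∈ Set.range (algebraMap k Ω) := by
  have : Algebra.IsAlgebraic k (algebraicClosure k Ω) := inferInstance
  have h1 := IntermediateField.eq_bot_of_isAlgClosed_of_isAlgebraic (algebraicClosure k Ω)
  have h2 : x ∈ algebraicClosure k Ω := mem_algebraicClosure_iff.mpr h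
  rw [h1] at h2
  exact IntermediateField.mem_bot.mp h2

/-- (3) if `k` is algebraically closed, an element with finite orbit lies in `k`. -/
theorem mem_range_algebraMap_of_finite_orbit [CharZero k] [IsAlgClosed k] (x : Ω)
    (h : (Set.range fun σ : Ω ≃ₐ[k] Ω => σ x).Finite) : x ∈ Set.range (algebraMap k Ω) :=
  mem_range_algebraMap_of_isAlgebraic x (isAlgebraic_of_finite_orbit x h)

/-- (3') the fixed field of `Aut(Ω/k)` is `k` (for `k` algebraically closed of characteristic 0). -/
theorem mem_range_algebraMap_of_fixed [CharZero k] [IsAlgClosed k] (x : Ω)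
    (h : ∀ σ : Ω ≃ₐ[k] Ω, σ x = x) : x ∈ Set.range (algebraMap k Ω) := by
  apply mem_range_algebraMap_of_finite_orbit
  apply (Set.finite_singleton x).subset
  rintro _ ⟨σ, rfl⟩
  exact h σ

/-- (4) every automorphism of an intermediate field `A` over which `Ω` is ... (any `A`) extends to
`Ω`. -/
theorem exists_algEquiv_extending (A : IntermediateField k Ω) (τ : A ≃ₐ[k] A) :
    ∃ σ : Ω ≃ₐ[k] Ω, ∀ a : A, σ (a : Ω) = (τ a : Ω) := by
  classical
  obtain ⟨ι, v, hv⟩ := exists_isTranscendenceBasis' A Ω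
  let _ := IsAlgClosed.isAlgClosure_of_transcendence_basis v hv
  let e0 : MvPolynomial ι A ≃+* MvPolynomial ι A := MvPolynomial.mapEquiv ι τ.toRingEquiv
  let e : Algebra.adjoin A (Set.range v) ≃+* Algebra.adjoin A (Set.range v) :=
    (hv.1.aevalEquiv.symm.toRingEquiv.trans e0).trans hv.1.aevalEquiv.toRingEquiv
  let σ0 : Ω ≃+* Ω := IsAlgClosure.equivOfEquiv Ω Ω e
  have key : ∀ a : A, σ0 (a : Ω) = (τ a : Ω) := by
    intro a
    have h1 : (algebraMap (Algebra.adjoin A (Set.range v)) Ω) (hv.1.aevalEquiv (C a)) = a := by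
      simp
    have h2 := IsAlgClosure.equivOfEquiv_algebraMap Ω Ω e (hv.1.aevalEquiv (C a))
    rw [h1] at h2
    change σ0 (a : Ω) = _ at h2
    rw [h2]
    have h3 : e (hv.1.aevalEquiv (C a)) = hv.1.aevalEquiv (C (τ a)) := by
      simp [e, e0]
    rw [h3]
    simp
  refine ⟨AlgEquiv.ofRingEquiv (f := σ0) ?_, key⟩
  intro c
  have h1 := key (algebraMap k A c)
  rw [τ.commutes] at h1
  exact h1

/-- (5) concrete form over `ℂ`: a transcendental number can be translated by an automorphism of `ℂ`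
fixing all algebraic numbers. -/
theorem exists_ringEquiv_fixing_algebraic (x : ℂ) (hx : Transcendental ℚ x) (n : ℕ) :
    ∃ σ : ℂ ≃+* ℂ, (∀ a : ℂ, IsAlgebraic ℚ a → σ a = a) ∧ σ x = x + n := by
  have hx' : Transcendental (algebraicClosure ℚ ℂ) x := hx.algebraicClosure
  obtain ⟨σ, hσ⟩ := exists_algEquiv_apply_eq_add (k := algebraicClosure ℚ ℂ) x hx' (n : algebraicClosure ℚ ℂ)
  refine ⟨σ.toRingEquiv, ?_, ?_⟩
  · intro a ha
    exact σ.commutes ⟨a, mem_algebraicClosure_iff.mpr ha⟩
  · change σ x = _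
    rw [hσ]
    simp

/-- (5') a complex number whose orbit under the automorphisms of `ℂ` fixing all algebraic numbers is
finite is algebraic. -/
theorem isAlgebraic_of_finite_orbit_complex (x : ℂ)
    (h : {y : ℂ | ∃ σ : ℂ ≃+* ℂ, (∀ a : ℂ, IsAlgebraic ℚ a → σ a = a) ∧ σ x = y}.Finite) :
    IsAlgebraic ℚ x := by
  by_contra hx
  apply Set.infinite_of_injective_forall_mem (f := fun n : ℕ => x + (n : ℂ)) ?_ ?_ h
  · intro a b hab
    have h1 : (a : ℂ) = (b : ℂ) := add_left_cancel hab
    exact_mod_cast h1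
  · intro n
    obtain ⟨σ, h1, h2⟩ := exists_ringEquiv_fixing_algebraic x hx n
    exact ⟨σ, h1, h2⟩

end Fermat.Agent.Lib.AutExt
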