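import Mathlib
import Fermat.Prelude.Def_ModularCurve_X0

/-!
# `q`-expansions of `E₄` and `Δ` agree with the formal series of the prelude

Shared library file (only needs Mathlib and `Def_ModularCurve_X0`).
-/

set_option autoImplicit false

namespace Fermat.Agent.Lib.JQExp

open UpperHalfPlane Function ModularForm EisensteinSeries
open scoped Manifold MatrixGroups

local notation "𝕢" => Periodic.qParam

/-- The power series `f` converges to `F` on the open unit disc. -/
def Conv (f : PowerSeries ℂ) (F : ℂ → ℂ) : Prop :=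
  ∀ q : ℂ, ‖q‖ < 1 → HasSum (fun m : ℕ => PowerSeries.coeff m f * q ^ m) (F q)

theorem Conv.mul {f g : PowerSeries ℂ} {F G : ℂ → ℂ} (hf : Conv f F) (hg : Conv g G) :
    Conv (f * g) (fun q => F q * G q) := by
  intro q hq
  have h1 := hf q hq
  have h2 := hg q hq
  have hs1 : Summable (fun m : ℕ => ‖PowerSeries.coeff m f * q ^ m‖) := h1.summable.norm
  have hs2 : Summable (fun m : ℕ => ‖PowerSeries.coeff m g * q ^ m‖) := h2.summable.norm
  have hs := summable_norm_sum_mul_antidiagonal_of_summable_norm hs1 hs2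
  have e := tsum_mul_tsum_eq_tsum_sum_antidiagonal_of_summable_norm hs1 hs2
  rw [h1.tsum_eq, h2.tsum_eq] at e
  have key : (fun m : ℕ => PowerSeries.coeff m (f * g) * q ^ m) = fun n : ℕ =>
      ∑ kl ∈ Finset.HasAntidiagonal.antidiagonal n,
        (PowerSeries.coeff kl.1 f * q ^ kl.1) * (PowerSeries.coeff kl.2 g * q ^ kl.2) := by
    funext n
    rw [PowerSeries.coeff_mul, Finset.sum_mul]
    refine Finset.sum_congr rfl fun kl hkl => ?_
    rw [← Finset.HasAntidiagonal.mem_antidiagonal.mp hkl, pow_add]
    ring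
  rw [key]
  show HasSum _ (F q * G q)
  rw [e]
  exact hs.of_norm.hasSum

theorem Conv.one : Conv 1 (fun _ => 1) := by
  intro q _
  have := hasSum_ite_eq (0 : ℕ) (1 : ℂ)
  convert this using 2 with m
  by_cases hm : m = 0
  · subst hm; simp
  · simp [PowerSeries.coeff_one, hm]

theorem Conv.pow {f : PowerSeries ℂ} {F : ℂ → ℂ} (hf : Conv f F) (k : ℕ) :
    Conv (f ^ k) (fun q => F q ^ k) := by
  induction k with
  | zero => simpa using Conv.one
  | succ k ih => simpa [pow_succ] using ih.mul hf

theorem Conv.X_mul {f : PowerSeries ℂ} {F : ℂ → ℂ} (hf : Conv f F) :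
    Conv (PowerSeries.X * f) (fun q => q * F q) := by
  intro q hq
  rw [← hasSum_nat_add_iff' 1]
  simp only [Finset.range_one, Finset.sum_singleton, PowerSeries.coeff_zero_X_mul, zero_mul,
    sub_zero, PowerSeries.coeff_succ_X_mul]
  have e : (fun m : ℕ => PowerSeries.coeff m f * q ^ (m + 1)) =
      fun m : ℕ => q * (PowerSeries.coeff m f * q ^ m) := by
    funext m; ring
  rw [e]
  exact (hf q hq).mul_left q

/-- Taylor series of a function holomorphic on the unit disc. -/
noncomputable def taylor (F : ℂ → ℂ) : PowerSeries ℂ :=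
  PowerSeries.mk fun m => ((m.factorial : ℂ))⁻¹ * iteratedDeriv m F 0

theorem conv_taylor {F : ℂ → ℂ} (hF : DifferentiableOn ℂ F (Metric.ball 0 1)) :
    Conv (taylor F) F := by
  intro q hq
  have := Complex.hasSum_taylorSeries_on_ball hF (z := q) (by simpa using hq)
  have e : (fun m : ℕ => PowerSeries.coeff m (taylor F) * q ^ m) =
      fun n : ℕ => ((n.factorial : ℂ))⁻¹ • (q - 0) ^ n • iteratedDeriv n F 0 := by
    funext m
    simp only [taylor, PowerSeries.coeff_mk, sub_zero, smul_eq_mul]
    ring
  rw [e]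
  exact this

/-- Taylor coefficients of a polynomial function. -/
theorem iteratedDeriv_eval_zero (p : Polynomial ℂ) (m : ℕ) :
    iteratedDeriv m (fun q => p.eval q) 0 = (m.factorial : ℂ) * p.coeff m := by
  have : (fun q => p.eval q) = fun q => ∑ i ∈ Finset.range (p.natDegree + 1), p.coeff i * q ^ i := by
    funext q
    rw [Polynomial.eval_eq_sum_range]
  rw [this, iteratedDeriv_fun_sum (fun i _ => by fun_prop)]
  simp only [iteratedDeriv_const_mul_field, iteratedDeriv_fun_pow_zero]
  by_cases hm : m < p.natDegree + 1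
  · rw [Finset.sum_eq_single m]
    · simp [mul_comm]
    · intro b _ hb
      simp [Ne.symm hb]
    · intro h
      exact absurd (Finset.mem_range.mpr hm) h
  · rw [Polynomial.coeff_eq_zero_of_natDegree_lt (by omega), mul_zero]
    refine Finset.sum_eq_zero fun i hi => ?_
    have : m ≠ i := by
      have := Finset.mem_range.mp hi
      omega
    simp [this]

/-- Locally uniform convergence of holomorphic functions implies convergence of all iterated
derivatives. -/
theorem tendstoLocallyUniformlyOn_iteratedDeriv {ι : Type*} {φ : Filter ι} {F : ι → ℂ → ℂ}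
    {f : ℂ → ℂ} {U : Set ℂ} (hU : IsOpen U) (hf : TendstoLocallyUniformlyOn F f φ U)
    (hF : ∀ᶠ n in φ, DifferentiableOn ℂ (F n) U) (m : ℕ) :
    TendstoLocallyUniformlyOn (fun n => iteratedDeriv m (F n)) (iteratedDeriv m f) φ U ∧
      ∀ᶠ n in φ, DifferentiableOn ℂ (iteratedDeriv m (F n)) U := by
  induction m with
  | zero => simpa using ⟨hf, hF⟩
  | succ m ih =>
    refine ⟨?_, ?_⟩
    · have := ih.1.deriv ih.2 hU
      simpa [iteratedDeriv_succ, Function.comp_def] using this
    · filter_upwards [ih.2] with n hn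
      rw [iteratedDeriv_succ]
      exact hn.deriv hU

/-- The partial products of Euler's product, as integer polynomials. -/
noncomputable def eulerPoly (s : Finset ℕ) : Polynomial ℤ :=
  ∏ n ∈ s, (1 - Polynomial.X ^ (n + 1))

theorem eulerPoly_coe (s : Finset ℕ) :
    ((eulerPoly s : Polynomial ℤ) : PowerSeries ℤ) = ∏ n ∈ s, (1 - PowerSeries.X ^ (n + 1)) := by
  have := map_prod (Polynomial.coeToPowerSeries.ringHom (R := ℤ))
    (fun n : ℕ => (1 - Polynomial.X ^ (n + 1) : Polynomial ℤ)) s
  rw [Polynomial.coeToPowerSeries.ringHom_apply] at this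
  rw [eulerPoly, this]
  refine Finset.prod_congr rfl fun n _ => ?_
  simp [Polynomial.coeToPowerSeries.ringHom_apply]

theorem eulerPoly_eval (s : Finset ℕ) (q : ℂ) :
    ((eulerPoly s).map (Int.castRingHom ℂ)).eval q = ∏ n ∈ s, (1 - q ^ (n + 1)) := by
  simp [eulerPoly, Polynomial.map_prod, Polynomial.eval_prod]

open scoped PowerSeries.WithPiTopology in
theorem tendsto_coeff_eulerPoly (m : ℕ) :
    Filter.Tendsto (fun s : Finset ℕ => (((eulerPoly s).coeff m : ℤ) : ℂ)) Filter.atTop
      (nhds ((PowerSeries.coeff m ModularCurve.etaProd : ℤ) : ℂ)) := by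
  have h := (PowerSeries.WithPiTopology.multipliable_one_sub_X_pow ℤ).hasProd
  have hc : Continuous (fun f : PowerSeries ℤ => ((PowerSeries.coeff m f : ℤ) : ℂ)) :=
    continuous_of_discreteTopology.comp (PowerSeries.WithPiTopology.continuous_coeff ℤ m)
  have := (hc.tendsto _).comp h
  refine this.congr fun s => ?_
  simp only [Function.comp_apply, ← eulerPoly_coe, Polynomial.coeff_coe]

theorem taylor_euler :
    taylor (fun q : ℂ => ∏' n : ℕ, (1 - q ^ (n + 1))) =
      ModularCurve.etaProd.map (Int.castRingHom ℂ) := by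
  ext m
  have hloc := ModularForm.multipliableLocallyUniformlyOn_one_sub_pow.hasProdLocallyUniformlyOn
  rw [hasProdLocallyUniformlyOn_iff_tendstoLocallyUniformlyOn] at hloc
  have h1 := (tendstoLocallyUniformlyOn_iteratedDeriv Metric.isOpen_ball hloc
    (.of_forall fun s => by
      exact DifferentiableOn.fun_finsetProd (fun _ _ => by fun_prop)) m).1.tendsto_at
    (Metric.mem_ball_self one_pos)
  have h2 := (tendsto_coeff_eulerPoly m).const_mul (m.factorial : ℂ)
  have h3 : (fun s : Finset ℕ => iteratedDeriv m (fun q : ℂ => ∏ n ∈ s, (1 - q ^ (n + 1))) 0) =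
      fun s : Finset ℕ => (m.factorial : ℂ) * (((eulerPoly s).coeff m : ℤ) : ℂ) := by
    funext s
    have := iteratedDeriv_eval_zero ((eulerPoly s).map (Int.castRingHom ℂ)) m
    simpa [eulerPoly_eval] using this
  rw [h3] at h1
  have h4 := tendsto_nhds_unique h1 h2
  have hm : (m.factorial : ℂ) ≠ 0 := by exact_mod_cast m.factorial_ne_zero
  simp only [taylor, PowerSeries.coeff_mk, PowerSeries.coeff_map]
  rw [h4]
  simp [hm]

theorem Conv.congr {f : PowerSeries ℂ} {F G : ℂ → ℂ} (hf : Conv f F)
    (h : ∀ q : ℂ, ‖q‖ < 1 → F q = G q) : Conv f G := by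
  intro q hq
  rw [← h q hq]
  exact hf q hq

theorem conv_etaProd :
    Conv (ModularCurve.etaProd.map (Int.castRingHom ℂ)) (fun q : ℂ => ∏' n : ℕ, (1 - q ^ (n + 1))) := by
  rw [← taylor_euler]
  exact conv_taylor ModularForm.differentiableOn_tprod_one_sub_pow

theorem conv_dedekindEtaUnit :
    Conv (ModularCurve.dedekindEtaUnit.map (Int.castRingHom ℂ))
      (fun q : ℂ => ∏' n : ℕ, (1 - q ^ (n + 1)) ^ 24) := by
  rw [ModularCurve.dedekindEtaUnit, map_pow]
  exact (conv_etaProd.pow 24).congr fun q hq =>
    ((ModularForm.multipliable_one_sub_pow hq).tprod_pow 24).symm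

/-- **J5.** The `q`-expansion of `Δ` is `q ∏ (1 - qⁿ)²⁴` as a formal series. -/
theorem qExpansion_discriminant :
    qExpansion 1 ModularForm.discriminant =
      PowerSeries.X * ModularCurve.dedekindEtaUnit.map (Int.castRingHom ℂ) := by
  ext m
  refine (ModularFormClass.qExpansion_coeff_unique (f := CuspForm.discriminant)
    (c := fun m => PowerSeries.coeff m
      (PowerSeries.X * ModularCurve.dedekindEtaUnit.map (Int.castRingHom ℂ))) one_pos
    one_mem_strictPeriods_SL ?_ m).symm
  intro τ
  have := conv_dedekindEtaUnit.X_mul (𝕢 1 τ) (Periodic.norm_qParam_lt_one one_pos τ.im_pos)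
  simp only [smul_eq_mul]
  rw [CuspForm.coe_discriminant, ModularForm.discriminant_eq_q_prod]
  exact this

/-- **J4.** The `q`-expansion of `E₄` is the formal series of the prelude. -/
theorem qExpansion_E4 :
    qExpansion 1 E₄ = ModularCurve.eisenstein4.map (Int.castRingHom ℂ) := by
  ext m
  rw [E_qExpansion_coeff _ ⟨2, rfl⟩ m]
  have hb : bernoulli 4 = -1 / 30 := by decide +kernel
  by_cases hm : m = 0
  · simp [ModularCurve.eisenstein4, hm]
  · simp only [hm, if_false, ModularCurve.eisenstein4, PowerSeries.coeff_map, PowerSeries.coeff_mk,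
      hb, ArithmeticFunction.sigma_apply]
    push_cast
    norm_num

end Fermat.Agent.Lib.JQExp
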