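import Fermat.Prelude.Def_EllipticCurve_FrobeniusTrace
import Mathlib.RingTheory.Valuation.LocalSubring
import Mathlib.RingTheory.Polynomial.Content
import Mathlib.RingTheory.Invariant.Profinite
import Mathlib.FieldTheory.Galois.Profinite
import Mathlib.FieldTheory.Galois.Infinite
import Mathlib.FieldTheory.KrullTopology
import Mathlib.FieldTheory.IsAlgClosed.AlgebraicClosure
import Mathlib.FieldTheory.Finite.Basic

set_option autoImplicit false

namespace Fermat.Agent.Lib.Frobenius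

open Polynomial
open scoped Pointwise

section
variable {K : Type*} [Field K]

theorem exists_liesOverPrime [CharZero K] (ℓ : ℕ) (hℓ : ℓ.Prime) :
    ∃ A : ValuationSubring K, A.LiesOverPrime ℓ := by
  let R : Subring K := (Int.castRingHom K).range
  let l : R := ⟨(ℓ : K), ⟨(ℓ : ℤ), by simp⟩⟩
  have hI : Ideal.span {l} ≠ ⊤ := by
    intro h
    rw [Ideal.span_singleton_eq_top] at h
    obtain ⟨⟨_, ⟨n, rfl⟩⟩, hn⟩ := h.exists_right_inv
    have h1 : ((ℓ : K)) * ((n : ℤ) : K) = 1 := congrArg Subtype.val hn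
    have h2 : (ℓ : ℤ) * n = 1 := by exact_mod_cast h1
    have h3 : IsUnit (ℓ : ℤ) := IsUnit.of_mul_eq_one _ h2
    exact hℓ.one_lt.ne' (by simpa [Int.isUnit_iff_natAbs_eq] using h3)
  obtain ⟨A, -, hA⟩ := Ideal.image_subset_nonunits_valuationSubring _ hI
  exact ⟨A, hA ⟨l, Ideal.subset_span rfl, rfl⟩⟩

end

section
variable {K : Type*} [Field K]

theorem isIntegral_mem (A : ValuationSubring K) {x : K} (hx : IsIntegral ℤ x) : x ∈ A := by
  have h : IsIntegral A x := hx.tower_top
  obtain ⟨y, hy⟩ := IsIntegrallyClosed.algebraMap_eq_of_integral h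
  rw [← hy]
  exact y.2

theorem nonunits_add (A : ValuationSubring K) {x y : K} (hx : x ∈ A.nonunits)
    (hy : y ∈ A.nonunits) : x + y ∈ A.nonunits := by
  rw [ValuationSubring.mem_nonunits_iff] at *
  exact Valuation.map_add_lt _ hx hy

theorem nonunits_mul (A : ValuationSubring K) {x y : K} (hx : x ∈ A.nonunits)
    (hy : y ∈ A) : x * y ∈ A.nonunits := by
  rw [ValuationSubring.mem_nonunits_iff] at *
  rw [map_mul]
  exact mul_lt_one_of_lt_of_le hx ((A.valuation_le_one_iff y).mpr hy)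

theorem key (A : ValuationSubring K) (x : K) (hx : x ∈ A) (n : ℕ) :
    ∀ p : (integralClosure ℤ K)[X], p.natDegree ≤ n → aeval x p = 0 →
      (∃ i, ((p.coeff i : integralClosure ℤ K) : K) ∉ A.nonunits) →
      ∃ b s : K, IsIntegral ℤ b ∧ IsIntegral ℤ s ∧ s ∉ A.nonunits ∧ s * x = b := by
  induction n with
  | zero =>
    intro p hp h0 ⟨i, hi⟩
    exfalso
    rw [Polynomial.eq_C_of_natDegree_le_zero hp] at h0 hi
    simp only [aeval_C] at h0
    have h1 : ((p.coeff 0 : integralClosure ℤ K) : K) = 0 := h0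
    have h2 : p.coeff 0 = 0 := Subtype.ext h1
    apply hi
    rw [h2]
    simp
  | succ n ih =>
    intro p hp h0 ⟨i, hi⟩
    by_cases hdeg : p.natDegree ≤ n
    · exact ih p hdeg h0 ⟨i, hi⟩
    have hdeg' : p.natDegree = n + 1 := by omega
    have hz : IsIntegral ℤ ((p.leadingCoeff : K) * x) := by
      have h1 : IsIntegral (integralClosure ℤ K) (p.leadingCoeff • x) :=
        isIntegral_leadingCoeff_smul p x h0
      have : Algebra.IsIntegral ℤ (integralClosure ℤ K) := inferInstance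
      exact isIntegral_trans _ h1
    by_cases ha : (p.leadingCoeff : K) ∈ A.nonunits
    · let z : integralClosure ℤ K := ⟨(p.leadingCoeff : K) * x, hz⟩
      have hzn : (z : K) ∈ A.nonunits := nonunits_mul A ha hx
      refine ih (p.eraseLead + C z * X ^ n) ?_ ?_ ⟨i, ?_⟩
      · refine (natDegree_add_le _ _).trans (max_le ?_ (natDegree_C_mul_X_pow_le _ _))
        have := eraseLead_natDegree_le p
        omega
      · have h1 : aeval x p = aeval x p.eraseLead + (p.leadingCoeff : K) * x ^ (n + 1) := by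
          conv_lhs => rw [← eraseLead_add_C_mul_X_pow p, hdeg']
          simp only [map_add, map_mul, aeval_C, map_pow, aeval_X]
          rfl
        have h2 : aeval x (p.eraseLead + C z * X ^ n) =
            aeval x p.eraseLead + ((p.leadingCoeff : K) * x) * x ^ n := by
          simp only [map_add, map_mul, aeval_C, map_pow, aeval_X]
          rfl
        rw [h2, ← h0, h1]
        ring
      · have hi1 : i ≠ n + 1 := by
          rintro rfl
          apply hi
          rw [← hdeg']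
          exact ha
        rw [coeff_add, eraseLead_coeff_of_ne _ (by rw [hdeg']; exact hi1), coeff_C_mul_X_pow]
        split_ifs with hin
        · intro h
          apply hi
          have : ((p.coeff i : integralClosure ℤ K) : K) =
              ((p.coeff i + z : integralClosure ℤ K) : K) + (-1) * z := by
            push_cast; ring
          rw [this]
          refine nonunits_add A h ?_
          rw [mul_comm]
          exact nonunits_mul A hzn (neg_mem (one_mem _))
        · simpa using hi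
    · exact ⟨_, _, hz, p.leadingCoeff.2, ha, rfl⟩

end

section
variable {K : Type*} [Field K]

theorem intCast_not_mem_nonunits (A : ValuationSubring K) {ℓ : ℕ} (hℓ : ℓ.Prime)
    (hA : A.LiesOverPrime ℓ) {a : ℤ} (ha : ¬ (ℓ : ℤ) ∣ a) : (a : K) ∉ A.nonunits := by
  intro h
  have hcop : IsCoprime (ℓ : ℤ) a :=
    (Prime.coprime_iff_not_dvd (Nat.prime_iff_prime_int.mp hℓ)).mpr ha
  obtain ⟨u, v, huv⟩ := hcop
  have h1 : ((u : K) * (ℓ : K) + (v : K) * (a : K)) = 1 := by exact_mod_cast congrArg (Int.cast : ℤ → K) huv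
  have h2 : (1 : K) ∈ A.nonunits := by
    rw [← h1]
    refine nonunits_add A ?_ ?_
    · rw [mul_comm]; exact nonunits_mul A hA (intCast_mem _ u)
    · rw [mul_comm]; exact nonunits_mul A h (intCast_mem _ v)
  rw [ValuationSubring.mem_nonunits_iff, map_one] at h2
  exact lt_irrefl _ h2

theorem exists_integral_fraction [CharZero K] [Algebra ℚ K] [Algebra.IsAlgebraic ℚ K] (A : ValuationSubring K) {ℓ : ℕ} (hℓ : ℓ.Prime)
    (hA : A.LiesOverPrime ℓ) (x : K) (hx : x ∈ A) :
    ∃ b s : K, IsIntegral ℤ b ∧ IsIntegral ℤ s ∧ s ∉ A.nonunits ∧ s * x = b := by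
  have halg : IsAlgebraic ℤ x := by
    have := Algebra.IsAlgebraic.isAlgebraic (R := ℚ) x
    exact (IsFractionRing.isAlgebraic_iff ℤ ℚ K).mpr this
  obtain ⟨p, hp0, hp⟩ := halg
  have hprim := p.isPrimitive_primPart
  have hq : aeval x p.primPart = 0 := aeval_primPart_eq_zero hp0 hp
  have hex : ∃ i, ¬ (ℓ : ℤ) ∣ p.primPart.coeff i := by
    by_contra hcon
    push Not at hcon
    have h1 : C (ℓ : ℤ) ∣ p.primPart := (C_dvd_iff_dvd_coeff _ _).mpr hcon
    have h2 := hprim _ h1
    exact hℓ.one_lt.ne' (by simpa [Int.isUnit_iff_natAbs_eq] using h2)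
  obtain ⟨i, hi⟩ := hex
  refine key A x hx _ (p.primPart.map (algebraMap ℤ (integralClosure ℤ K))) le_rfl ?_ ⟨i, ?_⟩
  · rw [aeval_map_algebraMap]; exact hq
  · rw [coeff_map]
    have : ((algebraMap ℤ (integralClosure ℤ K) (p.primPart.coeff i) : integralClosure ℤ K) : K) =
      ((p.primPart.coeff i : ℤ) : K) := by simp
    rw [this]
    exact intCast_not_mem_nonunits A hℓ hA hi

end

section
variable {K : Type*} [Field K] [Algebra ℚ K] [IsAlgClosure ℚ K]

theorem isInvariant : Algebra.IsInvariant ℤ (integralClosure ℤ K) (K ≃ₐ[ℚ] K) := by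
  refine ⟨fun b hb => ?_⟩
  have h1 : (b : K) ∈ Set.range (algebraMap ℚ K) := by
    rw [InfiniteGalois.mem_range_algebraMap_iff_fixed]
    intro σ
    exact congrArg Subtype.val (hb σ)
  obtain ⟨r, hr⟩ := h1
  have h2 : IsIntegral ℤ r := by
    have : IsIntegral ℤ (algebraMap ℚ K r) := hr ▸ b.2
    exact (isIntegral_algebraMap_iff (algebraMap ℚ K).injective).mp this
  obtain ⟨n, hn⟩ := IsIntegrallyClosed.algebraMap_eq_of_integral h2
  refine ⟨n, Subtype.ext ?_⟩
  rw [← hr, ← hn]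
  simp

end

section
variable {K : Type*} [Field K] 

/-- inclusion of the ring of algebraic integers in a valuation subring -/
def incl (A : ValuationSubring K) : integralClosure ℤ K →+* A :=
  (integralClosure ℤ K).val.toRingHom.codRestrict A.toSubring (fun b => isIntegral_mem A b.2)

@[simp] theorem coe_incl (A : ValuationSubring K) (b : integralClosure ℤ K) :
    ((incl A b : A) : K) = (b : K) := rfl

def idealQ (A : ValuationSubring K) : Ideal (integralClosure ℤ K) :=
  (IsLocalRing.maximalIdeal A).comap (incl A)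

instance (A : ValuationSubring K) : (idealQ A).IsPrime :=
  Ideal.comap_isPrime _ _

theorem mem_idealQ (A : ValuationSubring K) (b : integralClosure ℤ K) :
    b ∈ idealQ A ↔ (b : K) ∈ A.nonunits := by
  rw [idealQ, Ideal.mem_comap, ValuationSubring.mem_nonunits_iff_exists_mem_maximalIdeal]
  constructor
  · intro h
    exact ⟨(incl A b).2, h⟩
  · rintro ⟨_, h⟩
    exact h

theorem idealQ_liesOver (A : ValuationSubring K) {ℓ : ℕ} (hℓ : ℓ.Prime)
    (hA : A.LiesOverPrime ℓ) : (idealQ A).LiesOver (Ideal.span {(ℓ : ℤ)}) := by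
  refine ⟨?_⟩
  ext n
  rw [Ideal.mem_span_singleton, Ideal.under_def, Ideal.mem_comap, mem_idealQ]
  have hc : ((algebraMap ℤ (integralClosure ℤ K) n : integralClosure ℤ K) : K) = (n : K) := by simp
  rw [hc]
  constructor
  · rintro ⟨m, rfl⟩
    push_cast
    exact nonunits_mul A hA (intCast_mem _ m)
  · intro h
    by_contra hn
    exact intCast_not_mem_nonunits A hℓ hA hn h

end

section
variable {K : Type*} [Field K] 

theorem natCast_mem_idealQ (A : ValuationSubring K) {ℓ : ℕ} (hA : A.LiesOverPrime ℓ) :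
    (ℓ : integralClosure ℤ K) ∈ idealQ A := by
  rw [mem_idealQ]
  have : (((ℓ : integralClosure ℤ K)) : K) = (ℓ : K) := by simp
  rw [this]
  exact hA

theorem charP_quot (A : ValuationSubring K) {ℓ : ℕ} (hℓ : ℓ.Prime) (hA : A.LiesOverPrime ℓ) :
    CharP (integralClosure ℤ K ⧸ idealQ A) ℓ := by
  have h0 : ((ℓ : ℕ) : integralClosure ℤ K ⧸ idealQ A) = 0 := by
    have := Ideal.Quotient.eq_zero_iff_mem.mpr (natCast_mem_idealQ A hA)
    simpa using this
  exact (CharP.charP_iff_prime_eq_zero hℓ).mpr h0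

theorem frob_bijective [IsAlgClosed K] (A : ValuationSubring K) {ℓ : ℕ} (hℓ : ℓ.Prime)
    (hA : A.LiesOverPrime ℓ) :
    Function.Bijective (fun x : integralClosure ℤ K ⧸ idealQ A => x ^ ℓ) := by
  haveI := charP_quot A hℓ hA
  haveI : Fact ℓ.Prime := ⟨hℓ⟩
  constructor
  · exact frobenius_inj (integralClosure ℤ K ⧸ idealQ A) ℓ
  · intro y
    obtain ⟨b, rfl⟩ := Ideal.Quotient.mk_surjective y
    obtain ⟨c, hc⟩ := IsAlgClosed.exists_pow_nat_eq (b : K) hℓ.pos
    have hci : IsIntegral ℤ c := IsIntegral.of_pow hℓ.pos (hc ▸ b.2)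
    refine ⟨Ideal.Quotient.mk _ ⟨c, hci⟩, ?_⟩
    show (Ideal.Quotient.mk (idealQ A) (⟨c, hci⟩ : integralClosure ℤ K)) ^ ℓ = _
    rw [← map_pow]
    congr 1
    exact Subtype.ext hc

/-- the Frobenius automorphism of `B ⧸ Q` -/
noncomputable def frobEquiv [IsAlgClosed K] (A : ValuationSubring K) {ℓ : ℕ} (hℓ : ℓ.Prime)
    (hA : A.LiesOverPrime ℓ) :
    haveI := idealQ_liesOver A hℓ hA
    (integralClosure ℤ K ⧸ idealQ A) ≃ₐ[ℤ ⧸ Ideal.span {(ℓ : ℤ)}] (integralClosure ℤ K ⧸ idealQ A) :=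
  haveI := idealQ_liesOver A hℓ hA
  haveI := charP_quot A hℓ hA
  haveI : Fact ℓ.Prime := ⟨hℓ⟩
  AlgEquiv.ofBijective
    { frobenius (integralClosure ℤ K ⧸ idealQ A) ℓ with
      commutes' := by
        intro r
        obtain ⟨n, rfl⟩ := Ideal.Quotient.mk_surjective r
        show (algebraMap (ℤ ⧸ Ideal.span {(ℓ : ℤ)}) (integralClosure ℤ K ⧸ idealQ A) (Ideal.Quotient.mk _ n)) ^ ℓ = _
        rw [← map_pow, ← map_pow]
        congr 1
        rw [Ideal.Quotient.eq, Ideal.mem_span_singleton]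
        have h1 : ((n ^ ℓ - n : ℤ) : ZMod ℓ) = 0 := by
          push_cast
          rw [ZMod.pow_card, sub_self]
        exact (ZMod.intCast_zmod_eq_zero_iff_dvd _ _).mp h1 }
    (frob_bijective A hℓ hA)

theorem frobEquiv_apply [IsAlgClosed K] (A : ValuationSubring K) {ℓ : ℕ} (hℓ : ℓ.Prime)
    (hA : A.LiesOverPrime ℓ) (x : integralClosure ℤ K ⧸ idealQ A) :
    haveI := idealQ_liesOver A hℓ hA
    frobEquiv A hℓ hA x = x ^ ℓ := rfl

end

section
variable {K : Type*} [Field K] [Algebra ℚ K] [IsAlgClosure ℚ K]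

theorem exists_stabilizer_frob (A : ValuationSubring K) {ℓ : ℕ} (hℓ : ℓ.Prime)
    (hA : A.LiesOverPrime ℓ) :
    ∃ σ : K ≃ₐ[ℚ] K, σ • idealQ A = idealQ A ∧
      ∀ b : integralClosure ℤ K, σ • b - b ^ ℓ ∈ idealQ A := by
  haveI := idealQ_liesOver A hℓ hA
  haveI : IsAlgClosed K := IsAlgClosure.isAlgClosed ℚ
  haveI : Algebra.IsInvariant ℤ (integralClosure ℤ K) (K ≃ₐ[ℚ] K) := isInvariant
  letI : TopologicalSpace (integralClosure ℤ K) := ⊥
  haveI : DiscreteTopology (integralClosure ℤ K) := ⟨rfl⟩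
  haveI : ContinuousSMul (K ≃ₐ[ℚ] K) (integralClosure ℤ K) := by
    rw [continuousSMul_iff_stabilizer_isOpen]
    intro b
    convert stabilizer_isOpen_of_isIntegral (K := ℚ) (b : K) using 2
    ext σ
    simp only [MulAction.mem_stabilizer_iff]
    exact Subtype.ext_iff
  obtain ⟨⟨σ, hσQ⟩, hσ⟩ := Ideal.Quotient.stabilizerHom_surjective_of_profinite
    (G := K ≃ₐ[ℚ] K) (Ideal.span {(ℓ : ℤ)}) (idealQ A) (frobEquiv A hℓ hA)
  refine ⟨σ, hσQ, fun b => ?_⟩
  have h1 := DFunLike.congr_fun hσ (Ideal.Quotient.mk _ b)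
  rw [frobEquiv_apply, Ideal.Quotient.stabilizerHom_apply, ← map_pow, Ideal.Quotient.eq] at h1
  exact h1

end

section
variable {K : Type*} [Field K] [Algebra ℚ K] [IsAlgClosure ℚ K]

omit [Algebra ℚ K] [IsAlgClosure ℚ K] in
theorem inv_mem_of_not_mem_nonunits (A : ValuationSubring K) {s : K} (hs : s ∈ A)
    (hs' : s ∉ A.nonunits) : s⁻¹ ∈ A := by
  rw [ValuationSubring.mem_nonunits_iff, not_lt] at hs'
  have h1 : A.valuation s = 1 := le_antisymm ((A.valuation_le_one_iff s).mpr hs) hs'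
  rw [← A.valuation_le_one_iff, map_inv₀, h1, inv_one]

theorem map_mem_of_stabilizer [CharZero K] (A : ValuationSubring K) {ℓ : ℕ} (hℓ : ℓ.Prime)
    (hA : A.LiesOverPrime ℓ) (τ : K ≃ₐ[ℚ] K) (hτ : τ • idealQ A = idealQ A) {x : K} (hx : x ∈ A) :
    τ x ∈ A := by
  obtain ⟨b, s, hb, hs, hsn, hsx⟩ := exists_integral_fraction A hℓ hA x hx
  have hs0 : s ≠ 0 := by
    rintro rfl
    exact hsn (by simp)
  let s' : integralClosure ℤ K := ⟨s, hs⟩
  let b' : integralClosure ℤ K := ⟨b, hb⟩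
  have h1 : τ • s' ∉ idealQ A := by
    intro h
    rw [← hτ, Ideal.smul_mem_pointwise_smul_iff, mem_idealQ] at h
    exact hsn h
  rw [mem_idealQ] at h1
  have h2 : (τ s)⁻¹ ∈ A := inv_mem_of_not_mem_nonunits A (isIntegral_mem A (τ • s').2) h1
  have h3 : τ x = τ b * (τ s)⁻¹ := by
    rw [← hsx, map_mul]
    have : τ s ≠ 0 := by simpa using hs0
    field_simp
  rw [h3]
  exact mul_mem (isIntegral_mem A (τ • b').2) h2

theorem exists_isFrobeniusAt_of_liesOver [CharZero K] (A : ValuationSubring K) {ℓ : ℕ} (hℓ : ℓ.Prime)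
    (hA : A.LiesOverPrime ℓ) : ∃ σ : K ≃ₐ[ℚ] K, A.IsFrobeniusAt σ ℓ := by
  obtain ⟨σ, hσQ, hσ⟩ := exists_stabilizer_frob A hℓ hA
  have hσQ' : σ⁻¹ • idealQ A = idealQ A := by
    rw [inv_smul_eq_iff, hσQ]
  have hdec : σ ∈ A.decompositionSubgroup ℚ := by
    rw [MulAction.mem_stabilizer_iff]
    ext x
    rw [ValuationSubring.mem_pointwise_smul_iff_inv_smul_mem]
    constructor
    · intro h
      have := map_mem_of_stabilizer A hℓ hA σ hσQ h
      simpa using this
    · intro h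
      exact map_mem_of_stabilizer A hℓ hA σ⁻¹ hσQ' h
  refine ⟨σ, hdec, fun x => ?_⟩
  obtain ⟨⟨a, ha⟩, rfl⟩ := IsLocalRing.residue_surjective x
  rw [← IsLocalRing.ResidueField.residue_smul, ← map_pow]
  -- integral elements
  have hint : ∀ b : integralClosure ℤ K,
      IsLocalRing.residue A ((⟨σ, hdec⟩ : A.decompositionSubgroup ℚ) • incl A b) =
        IsLocalRing.residue A (incl A b ^ ℓ) := by
    intro b
    rw [← sub_eq_zero, ← map_sub, IsLocalRing.residue_eq_zero_iff]
    exact hσ b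
  obtain ⟨b, s, hb, hs, hsn, hsx⟩ := exists_integral_fraction A hℓ hA a ha
  let s' : integralClosure ℤ K := ⟨s, hs⟩
  let b' : integralClosure ℤ K := ⟨b, hb⟩
  have hmul : incl A s' * ⟨a, ha⟩ = incl A b' := Subtype.ext hsx
  have hs1 : IsLocalRing.residue A (incl A s') ≠ 0 := by
    rw [Ne, IsLocalRing.residue_eq_zero_iff]
    intro h
    exact hsn ((mem_idealQ A s').mp h)
  have e1 := hint b'
  rw [← hmul, smul_mul', map_mul, hint s', mul_pow, map_mul] at e1
  refine mul_left_cancel₀ ?_ e1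
  rw [map_pow]
  exact pow_ne_zero _ hs1

end

section

/-- Existence of Frobenius elements at every valuation subring of `AlgebraicClosure ℚ` lying over
a prime, for an arbitrary `ℚ`-algebra structure (they are all equal). -/
theorem exists_isFrobeniusAt_of_liesOverPrime [alg : Algebra ℚ (AlgebraicClosure ℚ)]
    (A : ValuationSubring (AlgebraicClosure ℚ)) {ℓ : ℕ} (hℓ : ℓ.Prime) (hA : A.LiesOverPrime ℓ) :
    ∃ σ : AlgebraicClosure ℚ ≃ₐ[ℚ] AlgebraicClosure ℚ, A.IsFrobeniusAt σ ℓ := by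
  obtain rfl : alg = AlgebraicClosure.instAlgebra ℚ := Subsingleton.elim _ _
  exact @exists_isFrobeniusAt_of_liesOver (AlgebraicClosure ℚ) _ (AlgebraicClosure.instAlgebra ℚ)
    inferInstance _ A ℓ hℓ hA

theorem exists_isFrobeniusAt [alg : Algebra ℚ (AlgebraicClosure ℚ)] (ℓ : ℕ) (hℓ : ℓ.Prime) :
    ∃ (A : ValuationSubring (AlgebraicClosure ℚ))
      (σ : AlgebraicClosure ℚ ≃ₐ[ℚ] AlgebraicClosure ℚ),
      A.LiesOverPrime ℓ ∧ A.IsFrobeniusAt σ ℓ := by
  obtain ⟨A, hA⟩ := exists_liesOverPrime (K := AlgebraicClosure ℚ) ℓ hℓ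
  obtain ⟨σ, hσ⟩ := exists_isFrobeniusAt_of_liesOverPrime A hℓ hA
  exact ⟨A, σ, hA, hσ⟩

end

end Fermat.Agent.Lib.Frobenius
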