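import Mathlib
import Fermat.Prelude.Def_ModularCurve_X0

/-!
# Kernel-checkable computations with truncated integer power series

`IsTr m f l` : for `i < m` the `i`-th coefficient of `f : ℤ⟦X⟧` is `l.getD i 0`.
Each ring operation has a list counterpart which the kernel can evaluate on literals.
-/

set_option autoImplicit false

namespace Fermat.Agent.Lib.TruncSeries

open PowerSeries

/-- for `i < m` the `i`-th coefficient of `f` is `l.getD i 0`. -/
def IsTr (m : ℕ) (f : PowerSeries ℤ) (l : List ℤ) : Prop :=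
  ∀ i, i < m → coeff i f = l.getD i 0

/-- tabulate a function. -/
def tab (m : ℕ) (g : ℕ → ℤ) : List ℤ := (List.range m).map g

theorem getD_tab {m : ℕ} (g : ℕ → ℤ) {i : ℕ} (hi : i < m) : (tab m g).getD i 0 = g i := by
  simp [tab, List.getD, hi]

def addL (m : ℕ) (a b : List ℤ) : List ℤ := tab m fun i => a.getD i 0 + b.getD i 0
def subL (m : ℕ) (a b : List ℤ) : List ℤ := tab m fun i => a.getD i 0 - b.getD i 0
def smulL (m : ℕ) (c : ℤ) (a : List ℤ) : List ℤ := tab m fun i => c * a.getD i 0
def mulL (m : ℕ) (a b : List ℤ) : List ℤ :=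
  tab m fun n => ((List.range (n + 1)).map fun i => a.getD i 0 * b.getD (n - i) 0).sum
def expandL (m r : ℕ) (a : List ℤ) : List ℤ :=
  tab m fun i => if r ∣ i then a.getD (i / r) 0 else 0
/-- multiplication by `1 - X^k`. -/
def eulerL (m k : ℕ) (a : List ℤ) : List ℤ :=
  tab m fun i => a.getD i 0 - if k ≤ i then a.getD (i - k) 0 else 0

variable {m : ℕ} {f g : PowerSeries ℤ} {a b c : List ℤ}

theorem IsTr.add (hf : IsTr m f a) (hg : IsTr m g b) (h : addL m a b = c) :
    IsTr m (f + g) c := by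
  intro i hi
  rw [← h, addL, getD_tab _ hi, map_add, hf i hi, hg i hi]

theorem IsTr.sub (hf : IsTr m f a) (hg : IsTr m g b) (h : subL m a b = c) :
    IsTr m (f - g) c := by
  intro i hi
  rw [← h, subL, getD_tab _ hi, map_sub, hf i hi, hg i hi]

theorem IsTr.smul (n : ℤ) (hf : IsTr m f a) (h : smulL m n a = c) :
    IsTr m ((n : PowerSeries ℤ) * f) c := by
  intro i hi
  rw [← h, smulL, getD_tab _ hi, ← map_intCast (C (R := ℤ)), coeff_C_mul, hf i hi]
  simp

theorem list_sum_range (n : ℕ) (F : ℕ → ℤ) :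
    ((List.range n).map F).sum = ∑ i ∈ Finset.range n, F i := by
  induction n with
  | zero => simp
  | succ n ih => rw [List.range_succ, List.map_append, List.sum_append, ih,
      Finset.sum_range_succ]; simp

theorem IsTr.mul (hf : IsTr m f a) (hg : IsTr m g b) (h : mulL m a b = c) :
    IsTr m (f * g) c := by
  intro n hn
  rw [← h, mulL, getD_tab _ hn, list_sum_range, coeff_mul,
    Finset.Nat.sum_antidiagonal_eq_sum_range_succ_mk]
  refine Finset.sum_congr rfl fun i hi => ?_
  have hi' : i < n + 1 := Finset.mem_range.mp hi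
  rw [hf i (by omega), hg (n - i) (by omega)]

theorem IsTr.expand (r : ℕ) (hr : r ≠ 0) (hf : IsTr m f a) (h : expandL m r a = c) :
    IsTr m (PowerSeries.expand r hr f) c := by
  intro i hi
  rw [← h, expandL, getD_tab _ hi, coeff_expand]
  split_ifs with hd
  · exact hf _ (lt_of_le_of_lt (Nat.div_le_self _ _) hi)
  · rfl

theorem IsTr.euler (k : ℕ) (hf : IsTr m f a) (h : eulerL m k a = c) :
    IsTr m (f * (1 - X ^ k)) c := by
  intro i hi
  rw [← h, eulerL, getD_tab _ hi, mul_sub, mul_one, map_sub, coeff_mul_X_pow', hf i hi]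
  split_ifs with hk
  · rw [hf _ (by omega)]
  · rfl

theorem IsTr.X_mul (hf : IsTr m f a) : IsTr m (X * f) (0 :: a) := by
  intro i hi
  cases i with
  | zero => simp
  | succ i => 
    rw [mul_comm, coeff_succ_mul_X, hf i (by omega)]
    simp

theorem isTr_one (m : ℕ) : IsTr m 1 [1] := by
  intro i _
  cases i with
  | zero => simp
  | succ i => simp [coeff_one]

theorem IsTr.congr (hf : IsTr m f a) (hg : IsTr m g a) {i : ℕ} (hi : i < m) :
    coeff i f = coeff i g := by rw [hf i hi, hg i hi]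

theorem IsTr.of_eq {f' : PowerSeries ℤ} (hf : IsTr m f a) (h : f = f') : IsTr m f' a := h ▸ hf

theorem X_pow_dvd_prod_sub_one (m : ℕ) (t : Finset ℕ) (ht : ∀ n ∈ t, m ≤ n) :
    (X : PowerSeries ℤ) ^ m ∣ (∏ n ∈ t, (1 - X ^ (n + 1) : PowerSeries ℤ)) - 1 := by
  classical
  induction t using Finset.induction_on with
  | empty => simp
  | insert a t ha ih =>
    rw [Finset.prod_insert ha]
    have h1 := ih fun n hn => ht n (Finset.mem_insert_of_mem hn)
    have h2 : (X : PowerSeries ℤ) ^ m ∣ X ^ (a + 1) :=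
      pow_dvd_pow _ (le_trans (ht a (Finset.mem_insert_self _ _)) (Nat.le_succ _))
    have e : (1 - X ^ (a + 1) : PowerSeries ℤ) * (∏ n ∈ t, (1 - X ^ (n + 1) : PowerSeries ℤ)) - 1
        = ((∏ n ∈ t, (1 - X ^ (n + 1) : PowerSeries ℤ)) - 1)
          - X ^ (a + 1) * ∏ n ∈ t, (1 - X ^ (n + 1) : PowerSeries ℤ) := by ring
    rw [e]
    exact dvd_sub h1 (Dvd.dvd.mul_right h2 _)

open scoped PowerSeries.WithPiTopology in
theorem coeff_etaProd {m i : ℕ} (hi : i < m) :
    coeff i ModularCurve.etaProd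
      = coeff i (∏ n ∈ Finset.range m, (1 - X ^ (n + 1) : PowerSeries ℤ)) := by
  have h := (PowerSeries.WithPiTopology.multipliable_one_sub_X_pow ℤ).hasProd
  have hc := PowerSeries.WithPiTopology.continuous_coeff ℤ i
  have h1 : Filter.Tendsto
      (fun s : Finset ℕ => coeff i (∏ n ∈ s, (1 - X ^ (n + 1) : PowerSeries ℤ))) Filter.atTop
      (nhds (coeff i ModularCurve.etaProd)) := (hc.tendsto _).comp h
  have h2 : ∀ᶠ s : Finset ℕ in Filter.atTop,
      coeff i (∏ n ∈ s, (1 - X ^ (n + 1) : PowerSeries ℤ))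
        = coeff i (∏ n ∈ Finset.range m, (1 - X ^ (n + 1) : PowerSeries ℤ)) := by
    filter_upwards [Filter.eventually_ge_atTop (Finset.range m)] with s hs
    rw [← Finset.prod_sdiff hs]
    have hd := X_pow_dvd_prod_sub_one m (s \ Finset.range m) (by
      intro n hn
      have := (Finset.mem_sdiff.mp hn).2
      simpa using this)
    have hd2 := Dvd.dvd.mul_right hd (∏ n ∈ Finset.range m, (1 - X ^ (n + 1) : PowerSeries ℤ))
    have := (X_pow_dvd_iff.mp hd2) i hi
    rw [sub_mul, one_mul, map_sub, sub_eq_zero] at this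
    exact this
  exact tendsto_nhds_unique h1 (tendsto_const_nhds.congr' (h2.mono fun _ h => h.symm))

theorem isTr_etaProd (h : IsTr m (∏ n ∈ Finset.range m, (1 - X ^ (n + 1) : PowerSeries ℤ)) a) :
    IsTr m ModularCurve.etaProd a := fun i hi => by rw [coeff_etaProd hi, h i hi]

/-- the coefficients of `E₄`. -/
def e4Fun (n : ℕ) : ℤ := if n = 0 then 1 else 240 * ∑ d ∈ n.divisors, (d : ℤ) ^ 3

theorem isTr_E4 (h : tab m e4Fun = a) : IsTr m ModularCurve.eisenstein4 a := by
  intro i hi
  rw [← h, getD_tab _ hi, ModularCurve.eisenstein4, coeff_mk, e4Fun]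

example : tab 17 e4Fun = [1, 240, 2160, 6720, 17520, 30240, 60480, 82560, 140400, 181680, 272160,
    319680, 490560, 527520, 743040, 846720, 1123440] := by decide +kernel

end Fermat.Agent.Lib.TruncSeries
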