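import Mathlib

set_option autoImplicit false

namespace Fermat.Agent.Lib.CyclotomicPID

open NumberField Ideal Module Polynomial

theorem exists_isPrincipal_of_norm_eq (p : ℕ) [NeZero p] (K : Type*) [Field K] [NumberField K]
    [IsCyclotomicExtension {p} ℚ K] {ℓ : ℕ} (hℓ : ℓ.Prime) (hℓp : ¬ ℓ ∣ p) (α : 𝓞 K)
    (hα : (Algebra.norm ℤ α).natAbs = ℓ ^ orderOf (ℓ : ZMod p)) :
    ∃ P ∈ primesOver (span {(ℓ : ℤ)}) (𝓞 K), Submodule.IsPrincipal P := by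
  have : Fact ℓ.Prime := ⟨hℓ⟩
  have hcop : ℓ.Coprime p := hℓ.coprime_iff_not_dvd.mpr hℓp
  have hf : 0 < orderOf (ℓ : ZMod p) := by
    have h := orderOf_pos (ZMod.unitOfCoprime ℓ hcop)
    rwa [← orderOf_injective (Units.coeHom (ZMod p)) Units.coeHom_injective] at h
  have hN : absNorm (span {α}) = ℓ ^ orderOf (ℓ : ZMod p) := by
    rw [absNorm_span_singleton, hα]
  obtain ⟨P, hPmax, hPunder, hPdvd⟩ := exists_isMaximal_dvd_of_dvd_absNorm' hℓ (span {α})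
    (by rw [hN]; exact dvd_pow_self _ hf.ne')
  have : P.IsPrime := hPmax.isPrime
  have : P.LiesOver (span {(ℓ : ℤ)}) := ⟨hPunder.symm⟩
  have hPN : absNorm P = ℓ ^ orderOf (ℓ : ZMod p) := by
    rw [← pow_inertiaDeg ℓ P, IsCyclotomicExtension.Rat.inertiaDeg_eq_of_not_dvd ℓ K P hℓp]
  obtain ⟨J, hJ⟩ := hPdvd
  have hJ1 : absNorm J = 1 := by
    have h := congrArg absNorm hJ
    rw [map_mul, hN, hPN] at h
    have hpos : 0 < ℓ ^ orderOf (ℓ : ZMod p) := pow_pos hℓ.pos _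
    exact Nat.eq_of_mul_eq_mul_left hpos (by rw [mul_one]; exact h.symm)
  rw [absNorm_eq_one_iff] at hJ1
  refine ⟨P, ⟨inferInstance, inferInstance⟩, ?_⟩
  rw [hJ1, mul_top] at hJ
  exact ⟨α, hJ.symm⟩

theorem prod_units_zmod_eq_prod_Ico (p : ℕ) [hp : Fact p.Prime] {M : Type*} [CommMonoid M]
    (F : ℕ → M) :
    ∏ a : (ZMod p)ˣ, F (a : ZMod p).val = ∏ k ∈ Finset.Ico 1 p, F k := by
  refine Finset.prod_nbij (fun a => (a : ZMod p).val) ?_ ?_ ?_ (fun _ _ => rfl)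
  · intro a _
    simp only [Finset.mem_Ico]
    refine ⟨?_, ZMod.val_lt _⟩
    rw [Nat.one_le_iff_ne_zero, Ne, ZMod.val_eq_zero]
    exact a.ne_zero
  · intro a _ b _ h
    exact Units.ext (ZMod.val_injective p h)
  · intro k hk
    simp only [Finset.coe_Ico, Set.mem_Ico] at hk
    have hcop : k.Coprime p := by
      rw [Nat.coprime_comm, hp.out.coprime_iff_not_dvd]
      exact Nat.not_dvd_of_pos_of_lt (by omega) hk.2
    refine ⟨ZMod.unitOfCoprime k hcop, by simp, ?_⟩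
    simp [ZMod.val_cast_of_lt hk.2]

theorem norm_aeval_eq_prod (p : ℕ) [hp : Fact p.Prime] (K : Type*) [Field K] [NumberField K]
    [IsCyclotomicExtension {p} ℚ K] {ζ : K} (hζ : IsPrimitiveRoot ζ p) (g : ℤ[X]) :
    ((Algebra.norm ℤ (aeval hζ.toInteger g) : ℤ) : 𝓞 K) =
      ∏ k ∈ Finset.Ico 1 p, aeval (hζ.toInteger ^ k) g := by
  have : IsGalois ℚ K := IsCyclotomicExtension.isGalois {p} ℚ K
  apply FaithfulSMul.algebraMap_injective (𝓞 K) K
  have h1 : algebraMap (𝓞 K) K ((Algebra.norm ℤ (aeval hζ.toInteger g) : ℤ) : 𝓞 K) =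
      algebraMap ℚ K (Algebra.norm ℚ (algebraMap (𝓞 K) K (aeval hζ.toInteger g))) := by
    rw [← Algebra.coe_norm_int]
    simp
  rw [h1, Algebra.norm_eq_prod_automorphisms, map_prod, ← prod_units_zmod_eq_prod_Ico]
  rw [← Equiv.prod_comp (IsCyclotomicExtension.Rat.galEquivZMod p K).toEquiv]
  refine Finset.prod_congr rfl fun σ _ => ?_
  have hz : algebraMap (𝓞 K) K hζ.toInteger = ζ := rfl
  have hσ : σ (aeval ζ g) = aeval (σ ζ) g :=
    (aeval_algHom_apply (σ.toAlgHom.restrictScalars ℤ) ζ g).symm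
  rw [← aeval_algebraMap_apply, ← aeval_algebraMap_apply, map_pow, hz, hσ,
    IsCyclotomicExtension.Rat.galEquivZMod_apply_of_pow_eq p K σ hζ.pow_eq_one]
  rfl

theorem norm_aeval_eq_of_prod_eq (p : ℕ) [hp : Fact p.Prime] (K : Type*) [Field K] [NumberField K]
    [IsCyclotomicExtension {p} ℚ K] {ζ : K} (hζ : IsPrimitiveRoot ζ p) (g : ℤ[X]) (N : ℤ)
    (h : ∏ k ∈ Finset.Ico 1 p, aeval (hζ.toInteger ^ k) g = (N : 𝓞 K)) :
    Algebra.norm ℤ (aeval hζ.toInteger g) = N := by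
  rw [← norm_aeval_eq_prod] at h
  exact Int.cast_injective h

theorem sum_toInteger_pow_eq_zero (p : ℕ) [hp : Fact p.Prime] (K : Type*) [Field K] [NumberField K]
    {ζ : K} (hζ : IsPrimitiveRoot ζ p) :
    ∑ i ∈ Finset.range p, hζ.toInteger ^ i = 0 :=
  hζ.toInteger_isPrimitiveRoot.geom_sum_eq_zero hp.out.one_lt

open scoped Real Nat in
theorem pid_of_certificates (p : ℕ) [hp : Fact p.Prime] (K : Type*) [Field K] [NumberField K]
    [IsCyclotomicExtension {p} ℚ K] (B : ℕ)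
    (hM : (4 / π) ^ InfinitePlace.nrComplexPlaces K *
      ((finrank ℚ K)! / (finrank ℚ K) ^ (finrank ℚ K) * √|discr K|) < B + 1)
    (h : ∀ ℓ ≤ B, ℓ.Prime → ℓ ≠ p → B < ℓ ^ orderOf (ℓ : ZMod p) ∨
      ∃ α : 𝓞 K, (Algebra.norm ℤ α).natAbs = ℓ ^ orderOf (ℓ : ZMod p)) :
    IsPrincipalIdealRing (𝓞 K) := by
  have : IsGalois ℚ K := IsCyclotomicExtension.isGalois {p} ℚ K
  have hfl : ⌊(4 / π) ^ InfinitePlace.nrComplexPlaces K *
      ((finrank ℚ K)! / (finrank ℚ K) ^ (finrank ℚ K) * √|discr K|)⌋₊ ≤ B := by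
    rw [← Nat.lt_succ_iff, Nat.floor_lt (by positivity)]
    exact_mod_cast hM
  apply RingOfIntegers.isPrincipalIdealRing_of_isPrincipal_of_lt_or_isPrincipal_of_mem_primesOver_of_mem_Icc
  intro ℓ hℓmem hℓ
  have hℓB : ℓ ≤ B := (Finset.mem_Icc.mp hℓmem).2.trans hfl
  by_cases hℓp : ℓ = p
  · subst hℓp
    have hζ := IsCyclotomicExtension.zeta_spec ℓ ℚ K
    obtain ⟨⟨P, hP1, hP2⟩⟩ := (span {(ℓ : ℤ)}).nonempty_primesOver (S := 𝓞 K)
    refine ⟨P, ⟨hP1, hP2⟩, Or.inr ?_⟩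
    rw [IsCyclotomicExtension.Rat.eq_span_zeta_sub_one_of_liesOver' ℓ K hζ P]
    exact ⟨_, rfl⟩
  · have hnd : ¬ ℓ ∣ p := fun hd => hℓp ((Nat.prime_dvd_prime_iff_eq hℓ hp.out).mp hd)
    rcases h ℓ hℓB hℓ hℓp with h1 | ⟨α, hα⟩
    · have : Fact ℓ.Prime := ⟨hℓ⟩
      obtain ⟨⟨P, hP1, hP2⟩⟩ := (span {(ℓ : ℤ)}).nonempty_primesOver (S := 𝓞 K)
      refine ⟨P, ⟨hP1, hP2⟩, Or.inl ?_⟩
      rw [IsCyclotomicExtension.Rat.inertiaDeg_eq_of_not_dvd ℓ K P hnd]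
      exact lt_of_le_of_lt hfl h1
    · obtain ⟨P, hP, hprin⟩ := exists_isPrincipal_of_norm_eq p K hℓ hnd α hα
      exact ⟨P, hP, Or.inr hprin⟩

theorem lt_pow_orderOf_of_forall (p B ℓ : ℕ) (hp : 1 < p) (hcop : ℓ.Coprime p)
    (h : ∀ n, 0 < n → ℓ ^ n ≤ B → ℓ ^ n % p ≠ 1) : B < ℓ ^ orderOf (ℓ : ZMod p) := by
  by_contra hcon
  rw [not_lt] at hcon
  have : NeZero p := ⟨by omega⟩
  have hf : 0 < orderOf (ℓ : ZMod p) := by
    have h := orderOf_pos (ZMod.unitOfCoprime ℓ hcop)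
    rwa [← orderOf_injective (Units.coeHom (ZMod p)) Units.coeHom_injective] at h
  apply h _ hf hcon
  have h1 : ((ℓ ^ orderOf (ℓ : ZMod p) : ℕ) : ZMod p) = ((1 : ℕ) : ZMod p) := by
    rw [Nat.cast_pow, pow_orderOf_eq_one, Nat.cast_one]
  rw [ZMod.natCast_eq_natCast_iff'] at h1
  rw [h1, Nat.mod_eq_of_lt hp]

def chk (p B : ℕ) (small special : List ℕ) (ℓ n : ℕ) : Bool :=
  !(decide (0 < n) && decide (ℓ ^ n ≤ B) && decide (ℓ ^ n % p = 1) && decide (1 < ℓ) &&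
    small.all (fun d => decide (ℓ % d ≠ 0) || decide (ℓ = d))) || special.contains ℓ

theorem lt_pow_orderOf_of_chk (p B m : ℕ) (small special : List ℕ) (hp : p.Prime)
    (hm : B < 2 ^ m) (hsmall : ∀ d ∈ small, 1 < d)
    (hchk : ∀ ℓ < B + 1, ∀ n < m, chk p B small special ℓ n = true)
    (ℓ : ℕ) (hℓB : ℓ ≤ B) (hℓ : ℓ.Prime) (hℓp : ℓ ≠ p) (hsp : ℓ ∉ special) :
    B < ℓ ^ orderOf (ℓ : ZMod p) := by
  apply lt_pow_orderOf_of_forall p B ℓ hp.one_lt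
    ((Nat.coprime_primes hℓ hp).mpr hℓp)
  intro n hn hle hmod
  have hnm : n < m := by
    by_contra hcon
    rw [not_lt] at hcon
    have h1 : 2 ^ m ≤ ℓ ^ n :=
      (Nat.pow_le_pow_right (by norm_num) hcon).trans (Nat.pow_le_pow_left hℓ.two_le n)
    omega
  have h := hchk ℓ (by omega) n hnm
  simp only [chk, Bool.or_eq_true, Bool.not_eq_true', Bool.and_eq_false_iff, decide_eq_false_iff_not,
    List.contains_iff_mem, List.all_eq_false] at h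
  rcases h with ((((h | h) | h) | h) | ⟨d, hd, h⟩) | h
  · exact h hn
  · exact h hle
  · exact h hmod
  · exact h hℓ.one_lt
  · simp only [ne_eq, decide_eq_true_eq, not_or, not_not] at h
    have hdvd : d ∣ ℓ := Nat.dvd_of_mod_eq_zero h.1
    rcases (Nat.dvd_prime hℓ).mp hdvd with h1 | h1
    · have := hsmall d hd; omega
    · exact h.2 h1.symm
  · exact hsp h

end Fermat.Agent.Lib.CyclotomicPID
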