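import Mathlib.NumberTheory.NumberField.Cyclotomic.PID
import Mathlib.NumberTheory.NumberField.Cyclotomic.Ideal
import Mathlib.NumberTheory.NumberField.Cyclotomic.Galois
import Mathlib.NumberTheory.NumberField.Norm
import Mathlib.Analysis.Real.Pi.Bounds
import Mathlib.Tactic.NormNum.Prime

set_option autoImplicit false

namespace Fermat.Agent.Lib.CyclotomicPID11

open NumberField Polynomial InfinitePlace Nat Real cyclotomic Module Ideal IsCyclotomicExtension.Rat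

variable (K : Type*) [Field K] [NumberField K]

theorem prod_units_eq {M : Type*} [CommMonoid M] (g : ℕ → M) :
    ∏ u : (ZMod 11)ˣ, g u.val.val = ∏ k ∈ Finset.Icc 1 10, g k := by
  refine Finset.prod_bij (fun u _ => u.val.val) ?_ ?_ ?_ ?_
  · intro u _
    revert u
    decide
  · intro u _ v _
    revert u v
    decide
  · intro k hk
    have : ∀ k ∈ Finset.Icc 1 10, ∃ u : (ZMod 11)ˣ, u.val.val = k := by decide
    obtain ⟨u, hu⟩ := this k hk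
    exact ⟨u, Finset.mem_univ _, hu⟩
  · intro u _
    rfl



theorem prod_conj_eq {R : Type*} [CommRing R] (ζ : R)
    (h : 1 + ζ + ζ ^ 2 + ζ ^ 3 + ζ ^ 4 + ζ ^ 5 + ζ ^ 6 + ζ ^ 7 + ζ ^ 8 + ζ ^ 9 + ζ ^ 10 = 0) :
    ∏ k ∈ Finset.Icc 1 10, (1 + ζ ^ k + (ζ ^ k) ^ 3) = 23 := by
  have e : ∀ g : ℕ → R, ∏ k ∈ Finset.Icc 1 10, g k =
      g 1 * g 2 * g 3 * g 4 * g 5 * g 6 * g 7 * g 8 * g 9 * g 10 := by
    intro g
    rw [← Finset.Ico_add_one_right_eq_Icc, Finset.prod_Ico_eq_prod_range]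
    norm_num [Finset.prod_range_succ]
  rw [e]
  linear_combination ((-22) + (23)*ζ + (2)*ζ^3 + (-1)*ζ^4 + (2)*ζ^5 + (2)*ζ^6 + (1)*ζ^7 + (1)*ζ^8 + (5)*ζ^9 + (3)*ζ^10 + (-21)*ζ^11 + (30)*ζ^12 + (2)*ζ^13 + (8)*ζ^14 + (8)*ζ^15 + (7)*ζ^16 + (6)*ζ^17 + (16)*ζ^18 + (4)*ζ^19 + (16)*ζ^20 + (18)*ζ^21 + (-13)*ζ^22 + (38)*ζ^23 + (24)*ζ^24 + (15)*ζ^25 + (17)*ζ^26 + (34)*ζ^27 + (18)*ζ^28 + (25)*ζ^29 + (33)*ζ^30 + (30)*ζ^31 + (23)*ζ^32 + (26)*ζ^33 + (43)*ζ^34 + (44)*ζ^35 + (52)*ζ^36 + (34)*ζ^37 + (38)*ζ^38 + (66)*ζ^39 + (33)*ζ^40 + (45)*ζ^41 + (75)*ζ^42 + (36)*ζ^43 + (39)*ζ^44 + (108)*ζ^45 + (39)*ζ^46 + (62)*ζ^47 + (86)*ζ^48 + (46)*ζ^49 + (69)*ζ^50 + (91)*ζ^51 + (57)*ζ^52 + (65)*ζ^53 + (109)*ζ^54 + (43)*ζ^55 + (85)*ζ^56 + (102)*ζ^57 + (69)*ζ^58 + (68)*ζ^59 + (108)*ζ^60 + (64)*ζ^61 + (78)*ζ^62 + (112)*ζ^63 + (59)*ζ^64 + (81)*ζ^65 + (124)*ζ^66 + (47)*ζ^67 +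 (90)*ζ^68 + (112)*ζ^69 + (56)*ζ^70 + (69)*ζ^71 + (135)*ζ^72 + (43)*ζ^73 + (82)*ζ^74 + (105)*ζ^75 + (57)*ζ^76 + (74)*ζ^77 + (109)*ζ^78 + (50)*ζ^79 + (72)*ζ^80 + (94)*ζ^81 + (43)*ζ^82 + (76)*ζ^83 + (98)*ζ^84 + (28)*ζ^85 + (70)*ζ^86 + (89)*ζ^87 + (33)*ζ^88 + (63)*ζ^89 + (81)*ζ^90 + (30)*ζ^91 + (51)*ζ^92 + (81)*ζ^93 + (20)*ζ^94 + (54)*ζ^95 + (60)*ζ^96 + (23)*ζ^97 + (40)*ζ^98 + (64)*ζ^99 + (12)*ζ^100 + (48)*ζ^101 + (42)*ζ^102 + (19)*ζ^103 + (28)*ζ^104 + (53)*ζ^105 + (-1)*ζ^106 + (42)*ζ^107 + (25)*ζ^108 + (17)*ζ^109 + (19)*ζ^110 + (40)*ζ^111 + (-6)*ζ^112 + (30)*ζ^113 + (19)*ζ^114 + (10)*ζ^115 + (9)*ζ^116 + (31)*ζ^117 + (-9)*ζ^118 + (22)*ζ^119 + (11)*ζ^120 + (10)*ζ^121 + (4)*ζ^122 + (21)*ζ^123 + (-10)*ζ^124 + (19)*ζ^125 + (2)*ζ^126 + (5)*ζ^127 + (3)*ζ^128 + (12)*ζ^129 + (-7)*ζ^130 + (13)*ζ^131 + (1)*ζ^132 + (3)*ζ^133 + (9)*ζ^135 + (-6)*ζ^136 + (7)*ζ^137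 + (2)*ζ^139 + (-1)*ζ^140 + (5)*ζ^141 + (-3)*ζ^142 + (4)*ζ^143 + (2)*ζ^147 + (-2)*ζ^148 + (3)*ζ^149 + (-1)*ζ^150 + (1)*ζ^153 + (-1)*ζ^154 + (1)*ζ^155) * h



variable {K}

omit [NumberField K] in
theorem sum_zeta_eq_zero {ζ : K} (hζ : IsPrimitiveRoot ζ 11) :
    1 + ζ + ζ ^ 2 + ζ ^ 3 + ζ ^ 4 + ζ ^ 5 + ζ ^ 6 + ζ ^ 7 + ζ ^ 8 + ζ ^ 9 + ζ ^ 10 = 0 := by
  have h := hζ.geom_sum_eq_zero (by norm_num)
  simpa [Finset.sum_range_succ] using h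

theorem norm_alpha [IsCyclotomicExtension {11} ℚ K] {ζ : K} (hζ : IsPrimitiveRoot ζ 11) :
    Algebra.norm ℚ (1 + ζ + ζ ^ 3) = 23 := by
  have : IsGalois ℚ K := IsCyclotomicExtension.isGalois {11} ℚ K
  apply (algebraMap ℚ K).injective
  rw [Algebra.norm_eq_prod_automorphisms]
  have h1 : ∀ σ : Gal(K/ℚ), σ (1 + ζ + ζ ^ 3) =
      1 + ζ ^ (galEquivZMod 11 K σ).val.val + (ζ ^ (galEquivZMod 11 K σ).val.val) ^ 3 := by
    intro σ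
    rw [map_add, map_add, map_one, map_pow, galEquivZMod_apply_of_pow_eq 11 K σ hζ.pow_eq_one]
  have h2 : ∏ σ : Gal(K/ℚ), σ (1 + ζ + ζ ^ 3) =
      ∏ u : (ZMod 11)ˣ, (1 + ζ ^ u.val.val + (ζ ^ u.val.val) ^ 3) :=
    Fintype.prod_equiv (galEquivZMod 11 K).toEquiv _ _ (fun σ => h1 σ)
  rw [h2, prod_units_eq (fun k => 1 + ζ ^ k + (ζ ^ k) ^ 3), prod_conj_eq ζ (sum_zeta_eq_zero hζ)]
  simp

theorem exists_principal_over_23 [IsCyclotomicExtension {11} ℚ K] :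
    ∃ P ∈ primesOver (span {((23 : ℕ) : ℤ)}) (𝓞 K), Submodule.IsPrincipal P := by
  have hζ := IsCyclotomicExtension.zeta_spec 11 ℚ K
  set α : 𝓞 K := 1 + hζ.toInteger + hζ.toInteger ^ 3 with hα
  have hn : Algebra.norm ℤ α = 23 := by
    have h := Algebra.coe_norm_int (K := K) α
    have h2 : ((α : 𝓞 K) : K) = 1 + IsCyclotomicExtension.zeta 11 ℚ K +
        IsCyclotomicExtension.zeta 11 ℚ K ^ 3 := by
      rfl
    rw [h2, norm_alpha hζ] at h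
    exact_mod_cast h
  have habs : absNorm (span {α}) = 23 := by
    rw [absNorm_span_singleton, hn]; rfl
  have hprime : (absNorm (span {α})).Prime := by rw [habs]; norm_num
  refine ⟨span {α}, ⟨isPrime_of_irreducible_absNorm
    ((Nat.irreducible_iff_nat_prime _).mpr hprime), ?_⟩, ⟨α, rfl⟩⟩
  rw [liesOver_iff, ← habs]
  exact span_singleton_absNorm hprime



variable (K)

theorem minkowski_floor_le [IsCyclotomicExtension {11} ℚ K] :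
    ⌊(4 / π) ^ nrComplexPlaces K *
      ((finrank ℚ K)! / (finrank ℚ K) ^ (finrank ℚ K) * √|discr K|)⌋₊ ≤ 58 := by
  have : Fact (Nat.Prime 11) := ⟨by norm_num⟩
  rw [discr_prime 11 K, IsCyclotomicExtension.finrank (n := 11) K
    (irreducible_rat (by simp)), nrComplexPlaces_eq_totient_div_two 11,
    totient_prime (by norm_num : Nat.Prime 11)]
  have hfac : ((11 - 1)! : ℕ) = 3628800 := by decide
  have habs : |(((-1 : ℤ) ^ ((11 - 1) / 2) * ((11 : ℕ) : ℤ) ^ (11 - 2) : ℤ) : ℝ)| = 2357947691 := by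
    norm_num
  rw [habs, hfac]
  have h1 : 4 / π < 4 / 3.1415 := by
    gcongr
    exact pi_gt_d4
  have h1' : (0 : ℝ) < 4 / π := by positivity
  have h2 : √(2357947691 : ℝ) < 48558.71 := by
    rw [Real.sqrt_lt' (by norm_num)]; norm_num
  refine Nat.lt_succ_iff.mp ((Nat.floor_lt (by positivity)).mpr ?_)
  calc (4 / π) ^ ((11 - 1) / 2) *
        (((3628800 : ℕ) : ℝ) / ((11 - 1 : ℕ) : ℝ) ^ (11 - 1) * √2357947691)
      ≤ (4 / 3.1415) ^ ((11 - 1) / 2) *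
        (((3628800 : ℕ) : ℝ) / ((11 - 1 : ℕ) : ℝ) ^ (11 - 1) * 48558.71) := by
        gcongr
    _ < ((58 : ℕ).succ : ℝ) := by norm_num

theorem lt_pow_orderOf {q : ℕ} (hq : q.Prime) (hq58 : q ≤ 58) (h11 : q ≠ 11) (h23 : q ≠ 23) :
    58 < q ^ orderOf ((q : ℕ) : ZMod 11) := by
  have key : ∀ q : ℕ, q ≤ 58 → q.Prime → q ≠ 11 → q ≠ 23 →
      ∀ j : ℕ, 0 < j → q ^ j ≤ 58 → ((q : ℕ) : ZMod 11) ^ j ≠ 1 := by
    intro q hq58 hq h11 h23 j hj hle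
    have hj6 : j < 6 := by
      by_contra hcon
      have h2 : 2 ^ 6 ≤ q ^ j :=
        (Nat.pow_le_pow_left hq.two_le 6).trans (Nat.pow_le_pow_right hq.pos (by omega))
      omega
    interval_cases q <;> first
      | (exfalso; revert hq; norm_num; done)
      | (exfalso; omega)
      | (interval_cases j <;> first
          | (exfalso; revert hle; norm_num; done)
          | decide)
  by_contra hcon
  have hpos : 0 < orderOf ((q : ℕ) : ZMod 11) := by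
    apply orderOf_pos_iff.mpr
    have hu : IsUnit ((q : ℕ) : ZMod 11) := by
      rw [ZMod.isUnit_iff_coprime]
      exact (Nat.coprime_primes hq (by norm_num)).mpr h11
    exact hu.isOfFinOrder
  exact key q hq58 hq h11 h23 _ hpos (not_lt.mp hcon) (pow_orderOf_eq_one _)

theorem eleven_pid [IsCyclotomicExtension {11} ℚ K] : IsPrincipalIdealRing (𝓞 K) := by
  have : IsGalois ℚ K := IsCyclotomicExtension.isGalois {11} ℚ K
  apply RingOfIntegers.isPrincipalIdealRing_of_isPrincipal_of_lt_or_isPrincipal_of_mem_primesOver_of_mem_Icc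
  intro q hq hqp
  have hle := minkowski_floor_le K
  have hq58 : q ≤ 58 := (Finset.mem_Icc.mp hq).2.trans hle
  have : Fact q.Prime := ⟨hqp⟩
  by_cases h11 : q = 11
  · subst h11
    have hζ := IsCyclotomicExtension.zeta_spec 11 ℚ K
    exact ⟨span {hζ.toInteger - 1}, ⟨isPrime_span_zeta_sub_one' 11 hζ,
      by
        have h := liesOver_span_zeta_sub_one 11 0 (K := K) (ζ := IsCyclotomicExtension.zeta 11 ℚ K)
          (hK := by simpa using ‹IsCyclotomicExtension {11} ℚ K›) (by simp [hζ])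
        exact h⟩, Or.inr ⟨_, rfl⟩⟩
  by_cases h23 : q = 23
  · subst h23
    obtain ⟨P, hP, hprin⟩ := exists_principal_over_23 (K := K)
    exact ⟨P, hP, Or.inr hprin⟩
  obtain ⟨⟨P, hP1, hP2⟩⟩ := (span {(q : ℤ)}).nonempty_primesOver (S := 𝓞 K)
  refine ⟨P, ⟨hP1, hP2⟩, Or.inl ?_⟩
  have hq11 : ¬ q ∣ 11 := by
    intro h
    exact h11 ((Nat.prime_dvd_prime_iff_eq hqp (by norm_num)).mp h)
  rw [inertiaDeg_eq_of_not_dvd q K P hq11]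
  exact lt_of_le_of_lt hle (lt_pow_orderOf hqp hq58 h11 h23)

end Fermat.Agent.Lib.CyclotomicPID11
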