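import Mathlib.NumberTheory.NumberField.Cyclotomic.PID
import Mathlib.NumberTheory.NumberField.Cyclotomic.Ideal
import Mathlib.Analysis.Real.Pi.Bounds
import Mathlib.Tactic.NormNum.Prime

set_option autoImplicit false

namespace Fermat.Agent.Lib.CyclotomicPID7

open NumberField Polynomial InfinitePlace Nat Real cyclotomic Module Ideal IsCyclotomicExtension.Rat

variable (K : Type*) [Field K] [NumberField K]

theorem minkowski_floor_le [IsCyclotomicExtension {7} ℚ K] :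
    ⌊(4 / π) ^ nrComplexPlaces K *
      ((finrank ℚ K)! / (finrank ℚ K) ^ (finrank ℚ K) * √|discr K|)⌋₊ ≤ 4 := by
  have : Fact (Nat.Prime 7) := ⟨by norm_num⟩
  rw [discr_prime 7 K, IsCyclotomicExtension.finrank (n := 7) K
    (irreducible_rat (by simp)), nrComplexPlaces_eq_totient_div_two 7,
    totient_prime (by norm_num : Nat.Prime 7)]
  have hfac : ((7 - 1)! : ℕ) = 720 := by decide
  have habs : |(((-1 : ℤ) ^ ((7 - 1) / 2) * ((7 : ℕ) : ℤ) ^ (7 - 2) : ℤ) : ℝ)| = 16807 := by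
    norm_num
  rw [habs, hfac]
  have h1 : 4 / π < 4 / 3.14 := by
    gcongr
    exact pi_gt_d2
  have h1' : (0 : ℝ) < 4 / π := by positivity
  have h2 : √(16807 : ℝ) < 130 := by
    rw [Real.sqrt_lt' (by norm_num)]; norm_num
  have h3 : (4 / π) ^ ((7 - 1) / 2) < (4 / 3.14) ^ ((7 - 1) / 2) := by
    gcongr
  refine Nat.lt_succ_iff.mp ((Nat.floor_lt (by positivity)).mpr ?_)
  calc (4 / π) ^ ((7 - 1) / 2) * (((720 : ℕ) : ℝ) / ((7 - 1 : ℕ) : ℝ) ^ (7 - 1) * √16807)
      ≤ (4 / 3.14) ^ ((7 - 1) / 2) * (((720 : ℕ) : ℝ) / ((7 - 1 : ℕ) : ℝ) ^ (7 - 1) * 130) := by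
        gcongr
    _ < ((4 : ℕ).succ : ℝ) := by norm_num

theorem seven_pid [IsCyclotomicExtension {7} ℚ K] : IsPrincipalIdealRing (𝓞 K) := by
  have : IsGalois ℚ K := IsCyclotomicExtension.isGalois {7} ℚ K
  apply RingOfIntegers.isPrincipalIdealRing_of_isPrincipal_of_lt_or_isPrincipal_of_mem_primesOver_of_mem_Icc
  intro q hq hqp
  have hle := minkowski_floor_le K
  have hq4 : q ≤ 4 := (Finset.mem_Icc.mp hq).2.trans hle
  have : Fact q.Prime := ⟨hqp⟩
  obtain ⟨⟨P, hP1, hP2⟩⟩ := (span {(q : ℤ)}).nonempty_primesOver (S := 𝓞 K)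
  refine ⟨P, ⟨hP1, hP2⟩, Or.inl ?_⟩
  have hq7 : ¬ q ∣ 7 := by
    intro h
    have := (Nat.prime_dvd_prime_iff_eq hqp (by norm_num)).mp h
    omega
  rw [inertiaDeg_eq_of_not_dvd q K P hq7]
  refine lt_of_le_of_lt hle ?_
  interval_cases q
  · exact absurd hqp (by norm_num)
  · exact absurd hqp (by norm_num)
  · have : orderOf ((2 : ℕ) : ZMod 7) = 3 := by
      rw [orderOf_eq_iff (by norm_num)]
      decide
    rw [this]; norm_num
  · have : orderOf ((3 : ℕ) : ZMod 7) = 6 := by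
      rw [orderOf_eq_iff (by norm_num)]
      decide
    rw [this]; norm_num
  · exact absurd hqp (by norm_num)

end Fermat.Agent.Lib.CyclotomicPID7
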