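import Mathlib
import Fermat.Agent.Lib.FLTCaseII.Abstract

/-!
Second case of Fermat's Last Theorem for an odd prime `p` such that `ℤ[ζ_p]` is principal and
Kummer's lemma holds.
-/

set_option autoImplicit false

namespace Fermat.Agent.Lib.FLTCaseII

open NumberField

variable {p : ℕ} [hp : Fact p.Prime] {K : Type*} [Field K] [NumberField K]
  [IsCyclotomicExtension {p} ℚ K] {ζ : K}

/-- Every `p`-th power in `ℤ[ζ_p]` is congruent to a rational integer modulo `p`. -/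
theorem exists_int_dvd_pow_sub (hζ : IsPrimitiveRoot ζ p) (α : 𝓞 K) :
    ∃ n : ℤ, (p : 𝓞 K) ∣ α ^ p - n := by
  have hmem : α ∈ Algebra.adjoin ℤ {hζ.toInteger} := by
    rw [IsCyclotomicExtension.Rat.adjoin_singleton_eq_top hζ]; trivial
  induction hmem using Algebra.adjoin_induction with
  | mem x hx =>
    rw [Set.mem_singleton_iff] at hx
    subst hx
    exact ⟨1, by rw [hζ.toInteger_isPrimitiveRoot.pow_eq_one]; simp⟩
  | algebraMap r => exact ⟨r ^ p, by simp⟩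
  | add x y _ _ hx hy =>
    obtain ⟨a, ha⟩ := hx
    obtain ⟨b, hb⟩ := hy
    obtain ⟨r, hr⟩ := exists_add_pow_prime_eq hp.out x y
    refine ⟨a + b, ?_⟩
    have h3 : (p : 𝓞 K) ∣ (p : 𝓞 K) * x * y * r := ⟨x * y * r, by ring⟩
    have := dvd_add (dvd_add ha hb) h3
    convert this using 1
    rw [hr]; push_cast; ring
  | mul x y _ _ hx hy =>
    obtain ⟨a, ha⟩ := hx
    obtain ⟨b, hb⟩ := hy
    refine ⟨a * b, ?_⟩
    have := dvd_add (ha.mul_right (y ^ p)) (hb.mul_left (a : 𝓞 K))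
    convert this using 1
    push_cast; ring

/-- The ring `ℤ[ζ_p]` satisfies the hypotheses of the abstract descent. -/
theorem hyp_of_cyclotomic (hodd : p ≠ 2) (hζ : IsPrimitiveRoot ζ p)
    (hKL : ∀ (u : (𝓞 K)ˣ) (n : ℤ), (p : 𝓞 K) ∣ (u : 𝓞 K) - n → ∃ v : (𝓞 K)ˣ, u = v ^ p) :
    Hyp p hζ.toInteger where
  prime_p := hp.out
  odd_p := hodd
  prim := hζ.toInteger_isPrimitiveRoot
  prime_lam := hζ.zeta_sub_one_prime'
  card_quot := by
    rw [hζ.card_quotient_toInteger_sub_one, hζ.norm_toInteger_sub_one_of_prime_ne_two' hodd]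
    simp
  p_dvd := (IsCyclotomicExtension.Rat.associated_zeta_sub_one_pow_prime p hζ).symm.dvd
  lam_dvd_p := hζ.toInteger_sub_one_dvd_prime'
  pow_int := exists_int_dvd_pow_sub hζ
  kummer := hKL

/-- Second case of Fermat's Last Theorem, assuming `ℤ[ζ_p]` principal and Kummer's lemma. -/
theorem caseII (hodd : p ≠ 2) (K : Type*) [Field K] [NumberField K]
    [IsCyclotomicExtension {p} ℚ K] (hPID : IsPrincipalIdealRing (𝓞 K))
    (hKL : ∀ (u : (𝓞 K)ˣ) (n : ℤ), (p : 𝓞 K) ∣ (u : 𝓞 K) - n → ∃ v : (𝓞 K)ˣ, u = v ^ p)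
    (a b c : ℤ) (hc : c ≠ 0) (hab : IsCoprime a b) (hpc : (p : ℤ) ∣ c) :
    a ^ p + b ^ p ≠ c ^ p := by
  intro h
  have hζ := IsCyclotomicExtension.zeta_spec p ℚ K
  have H := hyp_of_cyclotomic hodd hζ hKL
  have hpp : Prime (p : ℤ) := Nat.prime_iff_prime_int.mp hp.out
  have hp0 : p ≠ 0 := hp.out.ne_zero
  have hpa : ¬ (p : ℤ) ∣ a := by
    intro hpa
    have h1 : (p : ℤ) ∣ b ^ p := by
      have h2 : (p : ℤ) ∣ c ^ p - a ^ p := dvd_sub (dvd_pow hpc hp0) (dvd_pow hpa hp0)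
      have h3 : c ^ p - a ^ p = b ^ p := by rw [← h]; ring
      rwa [h3] at h2
    exact hpp.not_isUnit (hab.isUnit_of_dvd' hpa (hpp.dvd_of_dvd_pow h1))
  have hpb : ¬ (p : ℤ) ∣ b := by
    intro hpb
    have h1 : (p : ℤ) ∣ a ^ p := by
      have h2 : (p : ℤ) ∣ c ^ p - b ^ p := dvd_sub (dvd_pow hpc hp0) (dvd_pow hpb hp0)
      have h3 : c ^ p - b ^ p = a ^ p := by rw [← h]; ring
      rwa [h3] at h2
    exact hpp.not_isUnit (hab.isUnit_of_dvd' (hpp.dvd_of_dvd_pow h1) hpb)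
  refine H.no_solution (a : 𝓞 K) (b : 𝓞 K) (c : 𝓞 K) 1 (by exact_mod_cast hc) ?_ ?_ ?_ ?_ ?_
  · rwa [IsCyclotomicExtension.Rat.zeta_sub_one_dvd_intCast_iff' p hζ]
  · rwa [IsCyclotomicExtension.Rat.zeta_sub_one_dvd_intCast_iff' p hζ]
  · rwa [IsCyclotomicExtension.Rat.zeta_sub_one_dvd_intCast_iff' p hζ]
  · exact IsCoprime.intCast hab
  · rw [Units.val_one, one_mul]
    exact_mod_cast h

end Fermat.Agent.Lib.FLTCaseII
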