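import Mathlib

set_option autoImplicit false

open UpperHalfPlane ModularForm EisensteinSeries MatrixGroups ModularFormClass
open scoped Topology PeriodPair

namespace Fermat.Agent.Lib.JInjective


local notation "Δ" => ModularForm.discriminant

/-- a level one form of even weight `k ≥ 4` with constant term one which scales correctly. -/
theorem exists_monomial {z w : ℍ} {c : ℂ} (h4 : E₄ w = c ^ 4 * E₄ z) (h6 : E₆ w = c ^ 6 * E₆ z)
    (k : ℕ) (hk : 4 ≤ k) (hk2 : Even k) :
    ∃ g : ModularForm 𝒮ℒ (k : ℤ), (qExpansion 1 g).coeff 0 = 1 ∧ g w = c ^ k * g z := by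
  induction k using Nat.strong_induction_on with | _ k ih =>
  rcases Nat.lt_or_ge k 8 with hlt | hge
  · obtain rfl | rfl : k = 4 ∨ k = 6 := by
      obtain ⟨m, rfl⟩ := hk2
      omega
    · exact ⟨E₄, E_qExpansion_coeff_zero _ ⟨2, rfl⟩, h4⟩
    · exact ⟨E₆, E_qExpansion_coeff_zero _ ⟨3, rfl⟩, h6⟩
  · obtain ⟨g, hg0, hg⟩ := ih (k - 4) (by omega) (by omega) (by
      obtain ⟨m, rfl⟩ := hk2
      exact ⟨m - 2, by omega⟩)
    refine ⟨ModularForm.mcast (by push_cast [Nat.cast_sub (show 4 ≤ k by omega)]; ring) (g.mul E₄), ?_, ?_⟩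
    · rw [ModularForm.coe_mcast,
        ModularForm.qExpansion_mul one_pos one_mem_strictPeriods_SL g E₄]
      simp only [PowerSeries.coeff_zero_eq_constantCoeff, map_mul]
      simp only [← PowerSeries.coeff_zero_eq_constantCoeff]
      rw [hg0, E_qExpansion_coeff_zero _ ⟨2, rfl⟩, one_mul]
    · simp only [ModularForm.coe_mcast, ModularForm.coe_mul, Pi.mul_apply]
      rw [hg, h4]
      have : c ^ k = c ^ (k - 4) * c ^ 4 := by rw [← pow_add]; congr 1; omega
      rw [this]; ring

theorem discriminant_scaling {z w : ℍ} {c : ℂ} (h4 : E₄ w = c ^ 4 * E₄ z)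
    (h6 : E₆ w = c ^ 6 * E₆ z) : Δ w = c ^ 12 * Δ z := by
  rw [discriminant_eq_E₄_cube_sub_E₆_sq, discriminant_eq_E₄_cube_sub_E₆_sq, h4, h6]
  ring

theorem levelOne_scaling_nat {z w : ℍ} {c : ℂ} (h4 : E₄ w = c ^ 4 * E₄ z)
    (h6 : E₆ w = c ^ 6 * E₆ z) (k : ℕ) (f : ModularForm 𝒮ℒ (k : ℤ)) : f w = c ^ k * f z := by
  induction k using Nat.strong_induction_on with | _ k ih =>
  rcases Nat.even_or_odd k with hk2 | hk2
  · rcases Nat.lt_or_ge k 4 with hlt | hge
    · obtain rfl | rfl : k = 0 ∨ k = 2 := by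
        obtain ⟨m, rfl⟩ := hk2
        omega
      · obtain ⟨a, ha⟩ := levelOne_weight_zero_const (F := ModularForm 𝒮ℒ ((0 : ℕ) : ℤ)) f
        simp [ha]
      · have : f = 0 := rank_zero_iff_forall_zero.mp levelOne_weight_two_rank_zero f
        simp [this]
    · obtain ⟨g, hg0, hg⟩ := exists_monomial h4 h6 k hge hk2
      set a := (qExpansion 1 f).coeff 0 with ha
      have hcusp := (isCuspForm_iff_coeffZero_eq_zero _).mp (sub_smul_isCuspForm f g hg0)
      set h := CuspForm.discriminantEquiv (toCuspForm (f - a • g) hcusp) with hh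
      have key : ∀ τ : ℍ, f τ = a * g τ + Δ τ * h τ := by
        intro τ
        rw [hh, discriminant_mul_discriminantEquiv_apply, toCuspForm_apply]
        simp
      have hscal : h w = c ^ k * (c ^ 12)⁻¹ * h z ∨ (c = 0) := by
        by_cases hc : c = 0
        · exact Or.inr hc
        left
        rcases Nat.lt_or_ge k 12 with hlt | hge12
        · have : h = 0 := rank_zero_iff_forall_zero.mp (levelOne_neg_weight_rank_zero (by omega)) h
          simp [this]
        · have h1 := ih (k - 12) (by omega)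
            (ModularForm.mcast (by push_cast [Nat.cast_sub hge12]; ring) h)
          simp only [ModularForm.coe_mcast] at h1
          rw [h1]
          have : c ^ k = c ^ (k - 12) * c ^ 12 := by rw [← pow_add]; congr 1; omega
          rw [this]
          field_simp
      rcases hscal with hscal | hc
      · by_cases hc : c = 0
        · subst hc
          have := discriminant_scaling h4 h6
          simp at this
          exact absurd this (discriminant_ne_zero w)
        rw [key w, key z, hg, hscal, discriminant_scaling h4 h6]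
        field_simp
      · subst hc
        have := discriminant_scaling h4 h6
        simp at this
        exact absurd this (discriminant_ne_zero w)
  · have : f = 0 := levelOne_odd_weight_eq_zero (by exact_mod_cast hk2) f
    simp [this]



/-- the period pair `(d z, d)`. -/
noncomputable def pp (d : ℂ) (hd : d ≠ 0) (z : ℍ) : PeriodPair where
  ω₁ := d * z
  ω₂ := d
  indep := by
    rw [LinearIndependent.pair_iff]
    intro s t h
    have h1 : d * ((s : ℂ) * z + t) = 0 := by
      simp only [Complex.real_smul] at h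
      linear_combination h
    have h2 : (s : ℂ) * z + t = 0 := (mul_eq_zero.mp h1).resolve_left hd
    have h3 := congrArg Complex.im h2
    simp at h3
    have hs : s = 0 := h3.resolve_right z.im_ne_zero
    subst hs
    simp at h2
    exact ⟨rfl, h2⟩

theorem G_pp (d : ℂ) (hd : d ≠ 0) (z : ℍ) {k : ℕ} (hk : 3 ≤ k) :
    (pp d hd z).G k = (d ^ k)⁻¹ * (2 * riemannZeta k * E hk z) := by
  have h1 : E hk z = (1 / 2 : ℂ) * eisensteinSeries (N := 1) 0 k z := rfl
  have h2 := tsum_eisSummand_eq_riemannZeta_mul_eisensteinSeries hk z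
  have h0 : (pp d hd z).G k = ∑' x : ℤ × ℤ,
      ((((pp d hd z).latticeEquivProd.symm x : (pp d hd z).lattice) : ℂ) ^ k)⁻¹ :=
    ((pp d hd z).latticeEquivProd.symm.toEquiv.tsum_eq
      (fun l : (pp d hd z).lattice => ((l : ℂ) ^ k)⁻¹)).symm
  rw [h0]
  simp only [PeriodPair.latticeEquiv_symm_apply]
  rw [h1]
  have h3 : 2 * riemannZeta k * ((1 / 2 : ℂ) * eisensteinSeries (N := 1) 0 k z)
      = ∑' v : Fin 2 → ℤ, eisSummand k v z := by rw [h2]; ring
  rw [h3, ← (finTwoArrowEquiv ℤ).symm.tsum_eq, ← tsum_mul_left]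
  refine tsum_congr fun x => ?_
  simp only [pp, eisSummand, finTwoArrowEquiv_symm_apply, Matrix.cons_val_zero, Matrix.cons_val_one,
    zpow_neg, zpow_natCast]
  rw [← mul_inv, ← mul_pow]
  congr 2
  ring

/-- Two period pairs with the same lattice sums have the same lattice. -/
theorem lattice_le_of_G_eq (L₁ L₂ : PeriodPair) (h : ∀ k : ℕ, 3 ≤ k → L₁.G k = L₂.G k) :
    L₁.lattice ≤ L₂.lattice := by
  -- the two `℘` functions agree near `0`
  have hser : (fun i : ℕ ↦ if i = 0 then ℘[L₁ - (0:ℂ)] 0 else ((i : ℂ) + 1) * L₁.sumInvPow 0 (i + 2))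
      = (fun i : ℕ ↦ if i = 0 then ℘[L₂ - (0:ℂ)] 0 else ((i : ℂ) + 1) * L₂.sumInvPow 0 (i + 2)) := by
    funext i
    by_cases hi : i = 0
    · simp [hi]
    · simp only [hi, if_false, PeriodPair.sumInvPow_zero]
      rw [h (i + 2) (by omega)]
  have h1 := L₁.hasFPowerSeriesAt_weierstrassPExcept 0
  have h2 := L₂.hasFPowerSeriesAt_weierstrassPExcept 0
  rw [hser] at h1
  have hev : ℘[L₁ - (0:ℂ)] =ᶠ[𝓝 0] ℘[L₂ - (0:ℂ)] := by
    have e1 := h1.eventually_hasSum
    have e2 := h2.eventually_hasSum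
    filter_upwards [e1, e2] with y hy1 hy2
    simpa using hy1.unique hy2
  have hevP : ℘[L₁] =ᶠ[𝓝 0] ℘[L₂] := by
    filter_upwards [hev] with y hy
    rw [← L₁.weierstrassPExcept_add 0 y, ← L₂.weierstrassPExcept_add 0 y]
    simp only [ZeroMemClass.coe_zero]
    rw [hy]
  -- identity theorem on the complement of the two lattices
  set U : Set ℂ := ((L₁.lattice : Set ℂ) ∪ (L₂.lattice : Set ℂ))ᶜ with hU
  have hcount : ((L₁.lattice : Set ℂ) ∪ (L₂.lattice : Set ℂ)).Countable := by
    refine Set.Countable.union ?_ ?_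
    · exact Set.countable_coe_iff.mp (L₁.latticeEquivProd.toEquiv.injective.countable)
    · exact Set.countable_coe_iff.mp (L₂.latticeEquivProd.toEquiv.injective.countable)
  have hconn : IsPreconnected U :=
    (hcount.isPathConnected_compl_of_one_lt_rank (by simp [Complex.rank_real_complex])).isConnected.isPreconnected
  have hUopen : IsOpen U := (L₁.isClosed_lattice.union L₂.isClosed_lattice).isOpen_compl
  have hA1 : AnalyticOnNhd ℂ ℘[L₁] U := L₁.analyticOnNhd_weierstrassP.mono (by
    intro x hx; simp only [hU, Set.mem_compl_iff, Set.mem_union, not_or] at hx; exact hx.1)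
  have hA2 : AnalyticOnNhd ℂ ℘[L₂] U := L₂.analyticOnNhd_weierstrassP.mono (by
    intro x hx; simp only [hU, Set.mem_compl_iff, Set.mem_union, not_or] at hx; exact hx.2)
  -- a point of `U` near `0`
  obtain ⟨V, hV, hVopen, h0V⟩ := eventually_nhds_iff.mp hevP
  have hdense : Dense U := hcount.dense_compl ℝ
  obtain ⟨z₀, hz₀V, hz₀U⟩ := hdense.inter_open_nonempty V hVopen ⟨0, h0V⟩
  have heq : Set.EqOn ℘[L₁] ℘[L₂] U :=
    hA1.eqOn_of_preconnected_of_eventuallyEq hA2 hconn hz₀U
      (by filter_upwards [hVopen.mem_nhds hz₀V] with y hy using hV y hy)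
  intro l hl
  by_contra hl2
  have ho1 := L₁.order_weierstrassP l hl
  have ho2 : 0 ≤ meromorphicOrderAt ℘[L₂] l :=
    (L₂.analyticOnNhd_weierstrassP l hl2).meromorphicOrderAt_nonneg
  have hcongr : ℘[L₁] =ᶠ[𝓝[≠] l] ℘[L₂] := by
    have n1 := nhdsWithin_le_nhds (s := {l}ᶜ) (L₁.compl_lattice_sdiff_singleton_mem_nhds l)
    have n2 := nhdsWithin_le_nhds (s := {l}ᶜ) (L₂.compl_lattice_sdiff_singleton_mem_nhds l)
    filter_upwards [n1, n2, self_mem_nhdsWithin] with y hy1 hy2 hy3
    apply heq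
    simp only [hU, Set.mem_compl_iff, Set.mem_union, not_or]
    simp only [Set.mem_compl_iff, Set.mem_sdiff, Set.mem_singleton_iff, not_and, not_not] at hy1 hy2 hy3
    exact ⟨fun hh => hy3 (hy1 hh), fun hh => hy3 (hy2 hh)⟩
  rw [meromorphicOrderAt_congr hcongr] at ho1
  rw [ho1] at ho2
  exact absurd ho2 (by decide)



theorem im_formula {a b c e : ℤ} {z w : ℍ} (h : (w : ℂ) * ((c : ℂ) * z + e) = (a : ℂ) * z + b) :
    w.im * Complex.normSq ((c : ℂ) * z + e) = ((a * e - b * c : ℤ) : ℝ) * z.im := by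
  have hre := congrArg Complex.re h
  have him := congrArg Complex.im h
  simp only [Complex.mul_re, Complex.mul_im, Complex.add_re, Complex.add_im, Complex.intCast_re,
    Complex.intCast_im, zero_mul, sub_zero, add_zero, UpperHalfPlane.coe_re,
    UpperHalfPlane.coe_im] at hre him
  rw [Complex.normSq_apply]
  simp only [Complex.mul_re, Complex.mul_im, Complex.add_re, Complex.add_im, Complex.intCast_re,
    Complex.intCast_im, zero_mul, sub_zero, add_zero, UpperHalfPlane.coe_re,
    UpperHalfPlane.coe_im]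
  push_cast
  linear_combination ((c : ℝ) * z.re + e) * him - ((c : ℝ) * z.im) * hre

theorem exists_smul_eq_of_relations {d : ℂ} {z w : ℍ} {a b c e p q r s : ℤ}
    (hab : (a : ℂ) * (d * z) + b * d = w) (hce : (c : ℂ) * (d * z) + e * d = 1)
    (hpq : (p : ℂ) * w + q = d * z) (hrs : (r : ℂ) * w + s = d) :
    ∃ γ : SL(2, ℤ), γ • z = w := by
  have h1 : (w : ℂ) * ((c : ℂ) * z + e) = (a : ℂ) * z + b := by
    have : d * ((c : ℂ) * z + e) = 1 := by linear_combination hce
    calc (w : ℂ) * ((c : ℂ) * z + e) = ((a : ℂ) * z + b) * (d * ((c : ℂ) * z + e)) := by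
          rw [← hab]; ring
      _ = _ := by rw [this, mul_one]
  have h2 : (z : ℂ) * ((r : ℂ) * w + s) = (p : ℂ) * w + q := by rw [hrs, hpq]; ring
  have f1 := im_formula h1
  have f2 := im_formula h2
  have hN : Complex.normSq ((c : ℂ) * z + e) * Complex.normSq ((r : ℂ) * w + s) = 1 := by
    rw [← Complex.normSq_mul, hrs]
    have : ((c : ℂ) * z + e) * d = 1 := by linear_combination hce
    rw [this]; simp
  have hz := z.im_pos
  have hw := w.im_pos
  have hprod : ((a * e - b * c : ℤ) : ℝ) * ((p * s - q * r : ℤ) : ℝ) = 1 := by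
    have : ((a * e - b * c : ℤ) : ℝ) * ((p * s - q * r : ℤ) : ℝ) * (z.im * w.im) = z.im * w.im := by
      calc _ = (((a * e - b * c : ℤ) : ℝ) * z.im) * (((p * s - q * r : ℤ) : ℝ) * w.im) := by ring
        _ = (w.im * Complex.normSq ((c : ℂ) * z + e)) * (z.im * Complex.normSq ((r : ℂ) * w + s)) := by
            rw [f1, f2]
        _ = (z.im * w.im) * (Complex.normSq ((c : ℂ) * z + e) * Complex.normSq ((r : ℂ) * w + s)) := by
            ring
        _ = _ := by rw [hN, mul_one]
    exact mul_right_cancel₀ (mul_pos hz hw).ne' (by rw [this, one_mul])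
  have hprodZ : (a * e - b * c) * (p * s - q * r) = 1 := by exact_mod_cast hprod
  have hpos : 0 < a * e - b * c := by
    have hNpos : 0 < Complex.normSq ((c : ℂ) * z + e) := by
      rcases (Complex.normSq_nonneg ((c : ℂ) * z + e)).lt_or_eq with h | h
      · exact h
      · rw [← h] at hN; simp at hN
    have : 0 < ((a * e - b * c : ℤ) : ℝ) * z.im := by rw [← f1]; exact mul_pos hw hNpos
    have := (pos_iff_pos_of_mul_pos this).mpr hz
    exact_mod_cast this
  have hdet : a * e - b * c = 1 := by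
    rcases Int.eq_one_or_neg_one_of_mul_eq_one hprodZ with h | h
    · exact h
    · omega
  let γ : SL(2, ℤ) := ⟨!![a, b; c, e], by rw [Matrix.det_fin_two_of]; exact hdet⟩
  have g00 : γ 0 0 = a := rfl
  have g01 : γ 0 1 = b := rfl
  have g10 : γ 1 0 = c := rfl
  have g11 : γ 1 1 = e := rfl
  refine ⟨γ, ?_⟩
  apply UpperHalfPlane.ext
  rw [UpperHalfPlane.coe_specialLinearGroup_apply, g00, g01, g10, g11]
  simp only [algebraMap_int_eq, Int.coe_castRingHom, Complex.ofReal_intCast]
  have hne : (c : ℂ) * z + e ≠ 0 := by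
    intro h0
    rw [h0] at hN; simp at hN
  rw [div_eq_iff hne, h1]


/-- If `E₄`, `E₆` at `w` are the `c`-scalings of those at `z`, then `z`, `w` are `SL(2,ℤ)`-equivalent. -/
theorem exists_smul_eq_of_scaling {z w : ℍ} {c : ℂ} (hc : c ≠ 0) (h4 : E₄ w = c ^ 4 * E₄ z)
    (h6 : E₆ w = c ^ 6 * E₆ z) : ∃ γ : SL(2, ℤ), γ • z = w := by
  have hd : c⁻¹ ≠ 0 := inv_ne_zero hc
  set L₁ := pp c⁻¹ hd z with hL₁
  set L₂ := pp 1 one_ne_zero w with hL₂
  have hG : ∀ k : ℕ, 3 ≤ k → L₁.G k = L₂.G k := by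
    intro k hk
    rw [hL₁, hL₂, G_pp _ _ _ hk, G_pp _ _ _ hk, levelOne_scaling_nat h4 h6 k (E hk)]
    simp only [inv_pow, inv_inv, one_pow, inv_one, one_mul]
    ring
  have hle₁ := lattice_le_of_G_eq L₁ L₂ hG
  have hle₂ := lattice_le_of_G_eq L₂ L₁ (fun k hk => (hG k hk).symm)
  obtain ⟨a, b, hab⟩ := PeriodPair.mem_lattice.mp (hle₂ L₂.ω₁_mem_lattice)
  obtain ⟨c', e, hce⟩ := PeriodPair.mem_lattice.mp (hle₂ L₂.ω₂_mem_lattice)
  obtain ⟨p, q, hpq⟩ := PeriodPair.mem_lattice.mp (hle₁ L₁.ω₁_mem_lattice)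
  obtain ⟨r, s, hrs⟩ := PeriodPair.mem_lattice.mp (hle₁ L₁.ω₂_mem_lattice)
  simp only [hL₁, hL₂, pp, one_mul, mul_one] at hab hce hpq hrs
  exact exists_smul_eq_of_relations hab hce hpq hrs

/-- **`j` separates `SL(2,ℤ)`-orbits.** -/
theorem exists_smul_eq_of_j_eq {z w : ℍ} (h : E₄ z ^ 3 * Δ w = E₄ w ^ 3 * Δ z) :
    ∃ γ : SL(2, ℤ), γ • z = w := by
  have hΔz := discriminant_ne_zero z
  have hΔw := discriminant_ne_zero w
  have ez := discriminant_eq_E₄_cube_sub_E₆_sq z
  have ew := discriminant_eq_E₄_cube_sub_E₆_sq w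
  set a := E₄ z with ha
  set b := E₆ z with hb
  set a' := E₄ w with ha'
  set b' := E₆ w with hb'
  have hrel : a' ^ 3 * b ^ 2 = a ^ 3 * b' ^ 2 := by
    rw [ez, ew] at h
    linear_combination (1728 : ℂ) * h
  have hnz : a ^ 3 - b ^ 2 ≠ 0 := by
    intro h0; rw [ez, h0] at hΔz; simp at hΔz
  have hnw : a' ^ 3 - b' ^ 2 ≠ 0 := by
    intro h0; rw [ew, h0] at hΔw; simp at hΔw
  by_cases ha0 : a = 0
  · -- then `b ≠ 0`, `a' = 0`, `b' ≠ 0`
    have hb0 : b ≠ 0 := by
      intro hb0; apply hnz; rw [ha0, hb0]; ring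
    have ha'0 : a' = 0 := by
      rw [ha0] at hrel
      have : a' ^ 3 * b ^ 2 = 0 := by rw [hrel]; ring
      rcases mul_eq_zero.mp this with h1 | h1
      · exact pow_eq_zero_iff (by norm_num) |>.mp h1
      · exact absurd (pow_eq_zero_iff (by norm_num) |>.mp h1) hb0
    have hb'0 : b' ≠ 0 := by
      intro hb'0; apply hnw; rw [ha'0, hb'0]; ring
    obtain ⟨c, hc⟩ := IsAlgClosed.exists_pow_nat_eq (b' / b) (n := 6) (by norm_num)
    have hc0 : c ≠ 0 := by
      intro h0; rw [h0] at hc
      have : b' / b = 0 := by rw [← hc]; ring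
      exact absurd this (div_ne_zero hb'0 hb0)
    refine exists_smul_eq_of_scaling hc0 ?_ ?_
    · rw [← ha, ← ha', ha0, ha'0]; ring
    · rw [← hb, ← hb', hc]; field_simp
  · have ha'0 : a' ≠ 0 := by
      intro h0
      rw [h0] at hrel
      have : a ^ 3 * b' ^ 2 = 0 := by rw [← hrel]; ring
      rcases mul_eq_zero.mp this with h1 | h1
      · exact ha0 (pow_eq_zero_iff (by norm_num) |>.mp h1)
      · apply hnw; rw [h0, pow_eq_zero_iff (by norm_num) |>.mp h1]; ring
    by_cases hb0 : b = 0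
    · have hb'0 : b' = 0 := by
        rw [hb0] at hrel
        have : a ^ 3 * b' ^ 2 = 0 := by rw [← hrel]; ring
        rcases mul_eq_zero.mp this with h1 | h1
        · exact absurd (pow_eq_zero_iff (by norm_num) |>.mp h1) ha0
        · exact pow_eq_zero_iff (by norm_num) |>.mp h1
      obtain ⟨c, hc⟩ := IsAlgClosed.exists_pow_nat_eq (a' / a) (n := 4) (by norm_num)
      have hc0 : c ≠ 0 := by
        intro h0; rw [h0] at hc
        have : a' / a = 0 := by rw [← hc]; ring
        exact absurd this (div_ne_zero ha'0 ha0)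
      refine exists_smul_eq_of_scaling hc0 ?_ ?_
      · rw [← ha, ← ha', hc]; field_simp
      · rw [← hb, ← hb', hb0, hb'0]; ring
    · have hb'0 : b' ≠ 0 := by
        intro h0
        rw [h0] at hrel
        have : a' ^ 3 * b ^ 2 = 0 := by rw [hrel]; ring
        rcases mul_eq_zero.mp this with h1 | h1
        · exact ha'0 (pow_eq_zero_iff (by norm_num) |>.mp h1)
        · exact hb0 (pow_eq_zero_iff (by norm_num) |>.mp h1)
      obtain ⟨c, hc⟩ := IsAlgClosed.exists_pow_nat_eq ((b' / b) / (a' / a)) (n := 2) (by norm_num)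
      have hc0 : c ≠ 0 := by
        intro h0; rw [h0] at hc
        have : (b' / b) / (a' / a) = 0 := by rw [← hc]; ring
        exact absurd this (div_ne_zero (div_ne_zero hb'0 hb0) (div_ne_zero ha'0 ha0))
      refine exists_smul_eq_of_scaling hc0 ?_ ?_
      · rw [← ha, ← ha']
        have : c ^ 4 = (c ^ 2) ^ 2 := by ring
        rw [this, hc]
        field_simp
        linear_combination hrel
      · rw [← hb, ← hb']
        have : c ^ 6 = (c ^ 2) ^ 3 := by ring
        rw [this, hc]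
        field_simp
        linear_combination hrel

end Fermat.Agent.Lib.JInjective
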